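import Mathlib
import Fermat.Agent.LT.H17.Board
import Fermat.Agent.LT.H130.Wall
import Fermat.Agent.LT.H556.A0
import Fermat.Agent.LT.H556.WallTop
import Fermat.Agent.LT.A2.Spec

/-!
# Row LT, tower A2, branch GALSEED (co-architect helper38) -- frozen interfaces, level 2

OFF-MAIN.  Trunk of the tower: `Fermat/Agent/LT/A2/Spec.lean` (helper950), Prop `A2.GalSeedC`
(VERBATIM there).  Board: `origin/helper17:coord/LT-board2.md`.
Memo (routes, references, sizes, falsity audit): `origin/helper38:coord/LT-A2-GalSeed-helper38.md`.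

## Objects (all explicit, nothing assumed)

* `g0 = [[0,-1],[1,0]] ∈ SL₂(𝔽₃)` (order `4`), `C4 = ⟨g0⟩ ⊂ Q8`.
* `subC4 ρ = ρ⁻¹ C4`, `fieldL ρ` = its fixed field (`E = fieldE ρ ⊂ L = fieldL ρ ⊂ ℚ̄`),
  `algEL ρ` = the inclusion `E → L` as an algebra structure.
* `PlaceUnder K A w` : the finite place `w` of `K ⊂ ℚ̄` is the one cut out by the valuation
  subring `A` of `ℚ̄`.
* `thetaVal : C4 → ℂ`, `g0 ^ k ↦ i ^ k` (value `0` outside `C4`).
* `IsArtinOf ρ χ` : the idele class character `χ` of `L` is `θ ∘ Art_{M/L}` away from a finite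
  set of primes, IN TERMS OF `ρ` ONLY: for almost all `p`, every `A | p`, every Frobenius `σ` at
  `A`, the place `w = A ∩ L`: `χ` is unramified at `w`, and `χ(ϖ_w) = θ(ρ(σ)^f)`, `f` the least
  positive exponent with `ρ(σ)^f ∈ C4` (`= f(w | p)`, and `ρ(σ)^f = ρ(Frob_w)`).

## Level 2 (this file)

    GalSeedC ⟸ IotaC + NumFieldsC + TotCplxC + DegTwoC + ArtinSeedC + NonInvC + MatchC
                                                              (`galSeedC_of_leaves`, PROVED here)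

| leaf | content | reference | size |
|---|---|---|---|
| `IotaC` | a ring embedding `ℤ[√-2] → ℂ` | `Zsqrtd.lift` | 20 lines |
| `NumFieldsC` | `E`, `L` are number fields | Krull topology: `InfiniteGalois.isOpen_iff_finite` | 150 |
| `TotCplxC` | `E` is totally complex | `ζ₃ ∈ F ⊂ E` by `det ρ = ω̄` | 300 |
| `DegTwoC` | `[L : E] = 2` | Galois correspondence + `[Q8 : C4] = 2` + `ρ` onto | 500 |
| `ArtinSeedC` | `∃ χ`, idele class character of finite order, `IsArtinOf ρ χ` | ARTIN RECIPROCITY for the cyclic quartic `M / L` (tower CFT, helper53) + transport | tower |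
| `NonInvC` | `IsArtinOf ρ χ → NotGaloisInvariant E χ` | Chebotarev over `ℚ` (ON MAIN: `Lib/Cheb/Chebotarev.lean`) at `g0`; `χ(ϖ_{τ w}) = θ(g0⁻¹) = -i ≠ i` | 1500 |
| `MatchC` | `IsArtinOf ρ χ → InducedData χ π → SeedData E ρ Ψ ι π` | decomposition groups (Neukirch ANT I §9), `tr Ψ` on `Q8` | 3000 |

Every Prop is a TRUE statement of mathematics under the stated hypotheses (audit in the memo).
Definitions and the top only in this file (no `sorry`, nothing assumed).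
-/

set_option autoImplicit false

open IsDedekindDomain NumberField AutomorphicForm
open scoped MatrixGroups

noncomputable section

namespace Fermat.Agent.LT.A2.H38

open Fermat.Agent.LT.H130 Fermat.Agent.LT.H556 Fermat.Agent.LT.A2

local notation "Γℚ" => (AlgebraicClosure ℚ ≃ₐ[ℚ] AlgebraicClosure ℚ)

/-! ## The cyclic subgroup `C4 = ⟨g0⟩` and the field `L` -/

/-- `g0 = [[0,-1],[1,0]]`. -/
def g0 : GL (Fin 2) (ZMod 3) := ⟨!![0, 2; 1, 0], !![0, 1; 2, 0], by decide, by decide⟩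

theorem det_g0 : Matrix.GeneralLinearGroup.det g0 = 1 := Units.ext (by decide)

theorem g0_pow_four : g0 ^ 4 = 1 := Units.ext (by decide)

/-- `C4 = ⟨g0⟩`. -/
def C4 : Subgroup (GL (Fin 2) (ZMod 3)) := Subgroup.zpowers g0

/-- `ρ⁻¹(C4)`. -/
def subC4 (ρ : Γℚ →* GL (Fin 2) (ZMod 3)) : Subgroup Γℚ := C4.comap ρ

/-- `L`, the fixed field of `ρ⁻¹(C4)`: a quadratic extension of `E = fieldE ρ`. -/
def fieldL (ρ : Γℚ →* GL (Fin 2) (ZMod 3)) : IntermediateField ℚ (AlgebraicClosure ℚ) :=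
  IntermediateField.fixedField (subC4 ρ)

theorem subC4_le_subQ8 (ρ : Γℚ →* GL (Fin 2) (ZMod 3)) : subC4 ρ ≤ subQ8 ρ := by
  intro σ hσ
  obtain ⟨k, hk⟩ := Subgroup.mem_zpowers_iff.mp (Subgroup.mem_comap.mp hσ)
  refine Subgroup.subset_closure ⟨?_, ?_⟩
  · rw [← hk, map_zpow, det_g0, one_zpow]
  · rw [← hk, ← zpow_natCast, ← zpow_mul, mul_comm, zpow_mul, zpow_natCast, g0_pow_four,
      one_zpow]

theorem fieldE_le_fieldL (ρ : Γℚ →* GL (Fin 2) (ZMod 3)) : fieldE ρ ≤ fieldL ρ :=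
  IntermediateField.fixedField_le (subC4_le_subQ8 ρ)

/-- The inclusion `E ⊂ L` as an algebra structure. -/
@[reducible] def algEL (ρ : Γℚ →* GL (Fin 2) (ZMod 3)) : Algebra (fieldE ρ) (fieldL ρ) :=
  (IntermediateField.inclusion (fieldE_le_fieldL ρ)).toRingHom.toAlgebra

/-! ## Places under a valuation subring of `ℚ̄`; the character `θ` -/

/-- The finite place `w` of `K ⊂ ℚ̄` is the one cut out by the valuation subring `A` of `ℚ̄`:
`w = 𝔪_A ∩ 𝓞 K`. -/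
def PlaceUnder (K : IntermediateField ℚ (AlgebraicClosure ℚ))
    (A : ValuationSubring (AlgebraicClosure ℚ)) (w : HeightOneSpectrum (𝓞 K)) : Prop :=
  ∀ x : 𝓞 K, x ∈ w.asIdeal ↔ (((x : K) : AlgebraicClosure ℚ)) ∈ A.nonunits

/-- `θ : C4 → ℂ`, `θ(g0 ^ k) = i ^ k`; value `0` outside `C4`. -/
def thetaVal (h : GL (Fin 2) (ZMod 3)) : ℂ :=
  if h = 1 then 1 else if h = g0 then Complex.I else if h = g0 ^ 2 then -1
    else if h = g0 ^ 3 then -Complex.I else 0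

/-- `f` is the least positive exponent with `g ^ f ∈ C4`. -/
def IsLeastPowC4 (g : GL (Fin 2) (ZMod 3)) (f : ℕ) : Prop :=
  0 < f ∧ g ^ f ∈ C4 ∧ ∀ k : ℕ, 0 < k → k < f → g ^ k ∉ C4

/-- **`χ = θ ∘ Art_{M/L}` away from a finite set of primes**, in terms of `ρ` only. -/
def IsArtinOf (ρ : Γℚ →* GL (Fin 2) (ZMod 3)) [NumberField (fieldL ρ)]
    (χ : (A0.Adl (fieldL ρ))ˣ →* ℂˣ) : Prop :=
  ∃ S : Finset ℕ, ∀ p : ℕ, p.Prime → p ∉ S →
    ∀ A : ValuationSubring (AlgebraicClosure ℚ), A.LiesOverPrime p →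
      ∀ σ : Γℚ, A.IsFrobeniusAt σ p →
        ∀ w : HeightOneSpectrum (𝓞 (fieldL ρ)), PlaceUnder (fieldL ρ) A w →
          UnramAt χ w ∧
          ∀ f : ℕ, IsLeastPowC4 (ρ σ) f →
            ∀ z : (A0.Adl (fieldL ρ))ˣ, IsUnifIdeleAt w z → (χ z : ℂ) = thetaVal (ρ σ ^ f)

/-! ## Level 2: the leaves -/

/-- **IOTA.**  There is a ring homomorphism `ℤ[√-2] → ℂ`. -/
def IotaC : Prop := Nonempty (ℤ√(-2) →+* ℂ)

/-- **NUMFIELDS.**  `E` and `L` are number fields (`ρ` is continuous, so `ρ⁻¹(Q8)` and `ρ⁻¹(C4)`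
are open subgroups; Krull topology, `InfiniteGalois.isOpen_iff_finite`). -/
def NumFieldsC : Prop :=
  ∀ (ρ : Γℚ →* GL (Fin 2) (ZMod 3)) (Ψ : GL (Fin 2) (ZMod 3) →* GL (Fin 2) (ℤ√(-2))),
    LTB.Hyp ρ Ψ → NumberField (fieldE ρ) ∧ NumberField (fieldL ρ)

/-- **TOTCPLX.**  `E` is totally complex: `E ⊃ F = ℚ(ζ₃)` because `det ρ` is the cyclotomic
character modulo `3` and `Q8 ⊂ SL₂(𝔽₃)`. -/
def TotCplxC : Prop :=
  ∀ (ρ : Γℚ →* GL (Fin 2) (ZMod 3)) (Ψ : GL (Fin 2) (ZMod 3) →* GL (Fin 2) (ℤ√(-2))),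
    LTB.Hyp ρ Ψ → ∀ u : InfinitePlace (fieldE ρ), u.IsComplex

/-- **DEGTWO.**  `[L : E] = 2` (`ρ` is onto and `[Q8 : C4] = 2`). -/
def DegTwoC : Prop :=
  ∀ (ρ : Γℚ →* GL (Fin 2) (ZMod 3)) (Ψ : GL (Fin 2) (ZMod 3) →* GL (Fin 2) (ℤ√(-2))),
    LTB.Hyp ρ Ψ →
      letI := algEL ρ
      Module.finrank (fieldE ρ) (fieldL ρ) = 2

/-- **ARTINSEED (interface with tower CFT).**  Artin reciprocity for the cyclic quartic extension
`M / L` (`M` the fixed field of `ker ρ`, `Gal(M/L) = C4` via `ρ`): the character `θ ∘ Art_{M/L}`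
of the idele class group of `L`.  Neukirch, *Algebraic Number Theory*, VI (5.5), (7.1);
Cassels--Fröhlich VII §5. -/
def ArtinSeedC : Prop :=
  ∀ (ρ : Γℚ →* GL (Fin 2) (ZMod 3)) (Ψ : GL (Fin 2) (ZMod 3) →* GL (Fin 2) (ℤ√(-2))),
    LTB.Hyp ρ Ψ → ∀ [NumberField (fieldL ρ)],
      ∃ χ : (A0.Adl (fieldL ρ))ˣ →* ℂˣ, IsIdeleClassChar χ ∧ IsFiniteOrder χ ∧ IsArtinOf ρ χ

/-- **NONINV.**  `χ ≠ χ^τ`: by Chebotarev over `ℚ` (on main) there are `p`, `A | p` and a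
Frobenius `σ` at `A` with `ρ σ = g0`; with `τ ∈ ρ⁻¹(Q8 ∖ C4)` the places `w₁ = A ∩ L`,
`w₂ = τ A ∩ L` lie over the same place of `E`, and `χ(ϖ_{w₁}) = i`, `χ(ϖ_{w₂}) = θ(g0⁻¹) = -i`. -/
def NonInvC : Prop :=
  ∀ (ρ : Γℚ →* GL (Fin 2) (ZMod 3)) (Ψ : GL (Fin 2) (ZMod 3) →* GL (Fin 2) (ℤ√(-2))),
    LTB.Hyp ρ Ψ → ∀ [NumberField (fieldE ρ)] [NumberField (fieldL ρ)],
      ∀ χ : (A0.Adl (fieldL ρ))ˣ →* ℂˣ, IsArtinOf ρ χ →
        letI := algEL ρ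
        NotGaloisInvariant (fieldE ρ) χ

/-- **MATCH.**  The induced data of `χ` are the data `SeedData` of `Ψ ∘ ρ`: at a place `w` of `E`
over `p` (unramified, `w ∤ π.level`), `h = ρ(Frob_w) = g ^ ordQ8 g ∈ Q8`;
`h ∈ C4`: `w` splits in `L`, `a = θ(h) + θ(h)⁻¹ = tr Ψ h`, `b = 1`;
`h ∉ C4`: `w` is inert, `a = 0 = tr Ψ h`, `b = - θ(h²) = - θ(-1) = 1`. -/
def MatchC : Prop :=
  ∀ (ρ : Γℚ →* GL (Fin 2) (ZMod 3)) (Ψ : GL (Fin 2) (ZMod 3) →* GL (Fin 2) (ℤ√(-2))),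
    LTB.Hyp ρ Ψ → ∀ (ι : ℤ√(-2) →+* ℂ) [NumberField (fieldE ρ)] [NumberField (fieldL ρ)],
      ∀ χ : (A0.Adl (fieldL ρ))ˣ →* ℂˣ, IsArtinOf ρ χ →
        letI := algEL ρ
        ∀ π : HeckeEigensystem (fieldE ρ) ℂ, InducedData χ π → SeedData (fieldE ρ) ρ Ψ ι π

/-! ## The top of level 2 -/

/-- **GALSEED from its leaves.** -/
theorem galSeedC_of_leaves (hι : IotaC) (hN : NumFieldsC) (hT : TotCplxC) (hD : DegTwoC)
    (hA : ArtinSeedC) (hI : NonInvC) (hM : MatchC) : GalSeedC := by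
  intro ρ Ψ hyp
  obtain ⟨ι⟩ := hι
  obtain ⟨hNE, hNL⟩ := hN ρ Ψ hyp
  obtain ⟨χ, hχ, hfin, hart⟩ := @hA ρ Ψ hyp hNL
  exact ⟨ι, hNE, fieldL ρ, inferInstance, hNL, algEL ρ, χ, hD ρ Ψ hyp, hT ρ Ψ hyp, hχ, hfin,
    @hI ρ Ψ hyp hNE hNL χ hart, @hM ρ Ψ hyp ι hNE hNL χ hart⟩

end Fermat.Agent.LT.A2.H38

end
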