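import Mathlib
import Fermat.Agent.LT.A2.H38.GalSeedSpec

/-!
# Row LT, tower A2, branch GALSEED -- level 3: the cut of `MatchC` and `NonInvC`

OFF-MAIN (helper38).

    MatchC  ⟸ LevelPrimesC + UnifIdeleC + ConjPlaceC + SplitInertC + GroupC
                                                            (`matchC_of_leaves`, PROVED here)
    NonInvC ⟸ ChebG0C + PlaceExistsC + UnifIdeleC + SplitInertC + GroupC
                                                            (`nonInvC_of_leaves`, PROVED here)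

| leaf | content | reference | size |
|---|---|---|---|
| `LevelPrimesC` | almost no prime `p` lies under a prime dividing `𝔫 ≠ 0` | `Ideal.absNorm` | 150 |
| `UnifIdeleC` | every finite place has a uniformiser idele | Mathlib `FiniteAdeleRing`, restricted product | 400 |
| `PlaceExistsC` | `𝔪_A ∩ 𝓞 K` is a finite place of `K ⊂ ℚ̄` over `p` | `𝓞 K ⊂ A` (integrally closed) | 250 |
| `ConjPlaceC` | every place of `E` over `p` is `τ A ∩ E`; Frobenius at `τ A` is `τ σ τ⁻¹` | transitivity of `G_ℚ` on the valuation subrings over `p` (Neukirch ANT II (9.1)); G0 `FrobConj` on main | 1200 |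
| `SplitInertC` | for almost all `p`: `w = A ∩ E`, `h = ρ(σ)^{ordQ8}`: `h ∈ C4` ⟹ two places `A ∩ L ≠ τ A ∩ L` over `w`; `h ∉ C4` ⟹ `A ∩ L` is the only place over `w` | decomposition groups, double cosets `⟨h⟩ \ Q8 / C4` (Neukirch ANT I (9.3)-(9.6)) | 2500 |
| `GroupC` | finite group theory of `Q8 ⊂ GL₂(𝔽₃)`, `θ`, `tr Ψ` on `Q8` | brute force (`decide`) + helper701 `LT/H701/{GL23,Psi,Q8Rigid}.lean` | 800 |
| `ChebG0C` | infinitely many `p` with a Frobenius `σ`, `ρ σ = g0` | Chebotarev ON MAIN `Fermat.Agent.Lib.Cheb.chebotarev` + `ρ` onto | 300 |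

Every Prop is a TRUE statement of mathematics (audit in the memo
`origin/helper38:coord/LT-A2-GalSeed-helper38.md`).
-/

set_option autoImplicit false

open IsDedekindDomain NumberField AutomorphicForm
open scoped MatrixGroups

noncomputable section

namespace Fermat.Agent.LT.A2.H38

open Fermat.Agent.LT.H130 Fermat.Agent.LT.H556 Fermat.Agent.LT.A2

local notation "Γℚ" => (AlgebraicClosure ℚ ≃ₐ[ℚ] AlgebraicClosure ℚ)

/-- `t ∈ Q8 ∖ C4`. -/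
def InQ8NotC4 (t : GL (Fin 2) (ZMod 3)) : Prop := InQ8 t ∧ t ∉ C4

/-! ## General leaves -/

/-- **LEVELPRIMES.**  Only finitely many prime numbers lie under a prime dividing `𝔫 ≠ 0`. -/
def LevelPrimesC : Prop :=
  ∀ (K : Type) [Field K] [NumberField K] (𝔫 : Ideal (𝓞 K)), 𝔫 ≠ ⊥ →
    ∃ S : Finset ℕ, ∀ p : ℕ, p.Prime → p ∉ S →
      ∀ w : HeightOneSpectrum (𝓞 K), ((p : ℕ) : 𝓞 K) ∈ w.asIdeal → ¬ w.asIdeal ∣ 𝔫

/-- **UNIFIDELE.**  Every finite place has a uniformiser idele. -/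
def UnifIdeleC : Prop :=
  ∀ (K : Type) [Field K] [NumberField K] (w : HeightOneSpectrum (𝓞 K)),
    ∃ z : (A0.Adl K)ˣ, IsUnifIdeleAt w z

/-- **PLACEEXISTS.**  A valuation subring `A` of `ℚ̄` over `p` cuts out a finite place of every
number field `K ⊂ ℚ̄`, and this place lies over `p`. -/
def PlaceExistsC : Prop :=
  ∀ (K : IntermediateField ℚ (AlgebraicClosure ℚ)) [NumberField K] (p : ℕ), p.Prime →
    ∀ A : ValuationSubring (AlgebraicClosure ℚ), A.LiesOverPrime p →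
      ∃ w : HeightOneSpectrum (𝓞 K), PlaceUnder K A w ∧ ((p : ℕ) : 𝓞 K) ∈ w.asIdeal

/-! ## Leaves on `ρ` -/

/-- **CONJPLACE.**  Every place `w` of `E` over `p` is cut out by a conjugate `A' = τ A` of a
given valuation subring `A` over `p`, and the Frobenius elements at `A'` are the conjugates
`τ σ τ⁻¹` of those at `A`. -/
def ConjPlaceC : Prop :=
  ∀ (ρ : Γℚ →* GL (Fin 2) (ZMod 3)) (Ψ : GL (Fin 2) (ZMod 3) →* GL (Fin 2) (ℤ√(-2))),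
    LTB.Hyp ρ Ψ → ∀ [NumberField (fieldE ρ)], ∀ p : ℕ, p.Prime →
      ∀ A : ValuationSubring (AlgebraicClosure ℚ), A.LiesOverPrime p →
        ∀ w : HeightOneSpectrum (𝓞 (fieldE ρ)), ((p : ℕ) : 𝓞 (fieldE ρ)) ∈ w.asIdeal →
          ∃ (A' : ValuationSubring (AlgebraicClosure ℚ)) (τ : Γℚ),
            A'.LiesOverPrime p ∧ PlaceUnder (fieldE ρ) A' w ∧
              ∀ σ : Γℚ, A.IsFrobeniusAt σ p → A'.IsFrobeniusAt (τ * σ * τ⁻¹) p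

/-- **SPLITINERT.**  For almost all `p`, every `A | p`, every Frobenius `σ` at `A` and
`w = A ∩ E`, with `h = ρ(σ) ^ ordQ8 (ρ σ) = ρ(Frob_w) ∈ Q8`:
* `h ∈ C4`: `w` splits in `L`, the two places are `A ∩ L` and `A₂ ∩ L`, `A₂ = τ A` with
  `ρ τ = t ∈ Q8 ∖ C4` (Frobenius `σ₂ = τ σ τ⁻¹` at `A₂`);
* `h ∉ C4`: `A ∩ L` is the only place of `L` over `w`. -/
def SplitInertC : Prop :=
  ∀ (ρ : Γℚ →* GL (Fin 2) (ZMod 3)) (Ψ : GL (Fin 2) (ZMod 3) →* GL (Fin 2) (ℤ√(-2))),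
    LTB.Hyp ρ Ψ → ∀ [NumberField (fieldE ρ)] [NumberField (fieldL ρ)],
      letI := algEL ρ
      ∃ S : Finset ℕ, ∀ p : ℕ, p.Prime → p ∉ S →
        ∀ A : ValuationSubring (AlgebraicClosure ℚ), A.LiesOverPrime p →
          ∀ σ : Γℚ, A.IsFrobeniusAt σ p →
            ∀ w : HeightOneSpectrum (𝓞 (fieldE ρ)), PlaceUnder (fieldE ρ) A w →
              (ρ σ ^ ordQ8 (ρ σ) ∈ C4 →
                ∃ w₁ w₂ : HeightOneSpectrum (𝓞 (fieldL ρ)), w₁ ≠ w₂ ∧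
                  LiesOverPl (fieldE ρ) w₁ w ∧ LiesOverPl (fieldE ρ) w₂ w ∧
                  PlaceUnder (fieldL ρ) A w₁ ∧
                  ∃ (A₂ : ValuationSubring (AlgebraicClosure ℚ)) (σ₂ : Γℚ)
                    (t : GL (Fin 2) (ZMod 3)),
                    A₂.LiesOverPrime p ∧ A₂.IsFrobeniusAt σ₂ p ∧ InQ8NotC4 t ∧
                      ρ σ₂ = t * ρ σ * t⁻¹ ∧ PlaceUnder (fieldL ρ) A₂ w₂) ∧
              (ρ σ ^ ordQ8 (ρ σ) ∉ C4 →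
                ∃ w' : HeightOneSpectrum (𝓞 (fieldL ρ)), LiesOverPl (fieldE ρ) w' w ∧
                  (∀ w'' : HeightOneSpectrum (𝓞 (fieldL ρ)),
                    LiesOverPl (fieldE ρ) w'' w → w'' = w') ∧
                  PlaceUnder (fieldL ρ) A w')

/-- **GROUP.**  Finite group theory of `C4 ⊂ Q8 ⊂ GL₂(𝔽₃)` and the traces of `Ψ` on `Q8`
(`Ψ(-1) = -1`, `tr Ψ h = 0` for `h` of order `4`): with `f = ordQ8 g`, `h = g ^ f`,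
* `tr Ψ (g ^ ordQ8 g)` is a class function of `g`;
* `h ∈ C4`: `f` is the least exponent into `C4`, also for `t g t⁻¹` (`t ∈ Q8 ∖ C4`), and
  `θ(h) + θ(t h t⁻¹) = tr Ψ h`, `θ(h) θ(t h t⁻¹) = 1`, `θ(h) ≠ θ(t h t⁻¹)` if `h = g0`;
* `h ∉ C4`: `2 f` is the least exponent into `C4`, `θ(h²) = -1`, `tr Ψ h = 0`. -/
def GroupC : Prop :=
  ∀ (ρ : Γℚ →* GL (Fin 2) (ZMod 3)) (Ψ : GL (Fin 2) (ZMod 3) →* GL (Fin 2) (ℤ√(-2))),
    LTB.Hyp ρ Ψ → ∀ (ι : ℤ√(-2) →+* ℂ) (g : GL (Fin 2) (ZMod 3)),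
      (∀ x : GL (Fin 2) (ZMod 3),
        trΨ Ψ ι ((x * g * x⁻¹) ^ ordQ8 (x * g * x⁻¹)) = trΨ Ψ ι (g ^ ordQ8 g)) ∧
      (g ^ ordQ8 g ∈ C4 →
        IsLeastPowC4 g (ordQ8 g) ∧
        ∀ t : GL (Fin 2) (ZMod 3), InQ8NotC4 t →
          IsLeastPowC4 (t * g * t⁻¹) (ordQ8 g) ∧
          thetaVal (g ^ ordQ8 g) + thetaVal ((t * g * t⁻¹) ^ ordQ8 g)
            = trΨ Ψ ι (g ^ ordQ8 g) ∧
          thetaVal (g ^ ordQ8 g) * thetaVal ((t * g * t⁻¹) ^ ordQ8 g) = 1 ∧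
          (g = g0 → thetaVal (g ^ ordQ8 g) ≠ thetaVal ((t * g * t⁻¹) ^ ordQ8 g))) ∧
      (g ^ ordQ8 g ∉ C4 →
        IsLeastPowC4 g (2 * ordQ8 g) ∧ thetaVal (g ^ (2 * ordQ8 g)) = -1 ∧
        trΨ Ψ ι (g ^ ordQ8 g) = 0)

/-- **CHEB-G0.**  Outside every finite set of primes there are `p`, `A | p` and a Frobenius `σ`
at `A` with `ρ σ = g0`.  Chebotarev over `ℚ` (ON MAIN) for the fixed field of `ker ρ`. -/
def ChebG0C : Prop :=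
  ∀ (ρ : Γℚ →* GL (Fin 2) (ZMod 3)) (Ψ : GL (Fin 2) (ZMod 3) →* GL (Fin 2) (ℤ√(-2))),
    LTB.Hyp ρ Ψ → ∀ S : Finset ℕ,
      ∃ (p : ℕ) (A : ValuationSubring (AlgebraicClosure ℚ)) (σ : Γℚ),
        p.Prime ∧ p ∉ S ∧ A.LiesOverPrime p ∧ A.IsFrobeniusAt σ p ∧ ρ σ = g0

/-! ## The tops -/

theorem g0_inQ8 : InQ8 g0 := ⟨det_g0, g0_pow_four⟩

theorem ordQ8_g0 : ordQ8 g0 = 1 := by
  unfold ordQ8
  rw [if_pos g0_inQ8]

theorem g0_mem_C4 : g0 ∈ C4 := Subgroup.mem_zpowers g0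

/-- **MATCH from its leaves.** -/
theorem matchC_of_leaves (hLP : LevelPrimesC) (hU : UnifIdeleC) (hCP : ConjPlaceC)
    (hSI : SplitInertC) (hG : GroupC) : MatchC := by
  intro ρ Ψ hyp ι hNE hNL χ hart
  letI := algEL ρ
  intro π hind
  obtain ⟨S₁, hS₁⟩ := hLP (fieldE ρ) π.level π.level_ne_bot
  obtain ⟨S₂, hS₂⟩ := @hSI ρ Ψ hyp hNE hNL
  obtain ⟨S₃, hS₃⟩ := hart
  classical
  refine ⟨S₁ ∪ S₂ ∪ S₃, fun p hp hpS A hA σ hσ w hw => ?_⟩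
  have hp1 : p ∉ S₁ := fun h => hpS (Finset.mem_union_left _ (Finset.mem_union_left _ h))
  have hp2 : p ∉ S₂ := fun h => hpS (Finset.mem_union_left _ (Finset.mem_union_right _ h))
  have hp3 : p ∉ S₃ := fun h => hpS (Finset.mem_union_right _ h)
  -- move to a valuation subring over `w`
  obtain ⟨A', τ, hA', hwA', hconj⟩ := @hCP ρ Ψ hyp hNE p hp A hA w hw
  have hσ' := hconj σ hσ
  have hρ' : ρ (τ * σ * τ⁻¹) = ρ τ * ρ σ * (ρ τ)⁻¹ := by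
    rw [map_mul, map_mul, map_inv]
  obtain ⟨hcl, hin, hout⟩ := hG ρ Ψ hyp ι (ρ τ * ρ σ * (ρ τ)⁻¹)
  have hcl' := (hG ρ Ψ hyp ι (ρ σ)).1 (ρ τ)
  show π.a w = trΨ Ψ ι (ρ σ ^ ordQ8 (ρ σ)) ∧ π.b w = 1
  rw [← hcl']
  have hInd := hind w (hS₁ p hp hp1 w hw)
  obtain ⟨hsplit, hinert⟩ := hS₂ p hp hp2 A' hA' (τ * σ * τ⁻¹) hσ' w hwA'
  rw [hρ'] at hsplit hinert
  by_cases hC : (ρ τ * ρ σ * (ρ τ)⁻¹) ^ ordQ8 (ρ τ * ρ σ * (ρ τ)⁻¹) ∈ C4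
  · obtain ⟨w₁, w₂, hne, hl₁, hl₂, hu₁, A₂, σ₂, t, hA₂, hσ₂, ht, hρ₂, hu₂⟩ := hsplit hC
    obtain ⟨z₁, hz₁⟩ := hU (fieldL ρ) w₁
    obtain ⟨z₂, hz₂⟩ := hU (fieldL ρ) w₂
    obtain ⟨hab, hbb⟩ := hInd.1 w₁ w₂ hne hl₁ hl₂ z₁ z₂ hz₁ hz₂
    obtain ⟨hleast, hrest⟩ := hin hC
    obtain ⟨hleast₂, hsum, hprod, -⟩ := hrest t ht
    have e₁ := (hS₃ p hp hp3 A' hA' (τ * σ * τ⁻¹) hσ' w₁ hu₁).2 _
      (by rw [hρ']; exact hleast) z₁ hz₁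
    have e₂ := (hS₃ p hp hp3 A₂ hA₂ σ₂ hσ₂ w₂ hu₂).2 _
      (by rw [hρ₂]; exact hleast₂) z₂ hz₂
    rw [hρ'] at e₁
    rw [hρ₂] at e₂
    refine ⟨?_, ?_⟩
    · rw [hab, e₁, e₂, hsum]
    · rw [hbb, e₁, e₂, hprod]
  · obtain ⟨w', hl, huniq, hu⟩ := hinert hC
    obtain ⟨z, hz⟩ := hU (fieldL ρ) w'
    obtain ⟨ha, hb⟩ := hInd.2 w' hl huniq z hz
    obtain ⟨hleast, hth, htr⟩ := hout hC
    have e := (hS₃ p hp hp3 A' hA' (τ * σ * τ⁻¹) hσ' w' hu).2 _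
      (by rw [hρ']; exact hleast) z hz
    rw [hρ'] at e
    refine ⟨?_, ?_⟩
    · rw [ha, htr]
    · rw [hb, e, hth]; norm_num

/-- **NONINV from its leaves.** -/
theorem nonInvC_of_leaves (hCh : ChebG0C) (hP : PlaceExistsC) (hU : UnifIdeleC)
    (hSI : SplitInertC) (hG : GroupC) : NonInvC := by
  intro ρ Ψ hyp hNE hNL χ hart
  letI := algEL ρ
  obtain ⟨S₂, hS₂⟩ := @hSI ρ Ψ hyp hNE hNL
  obtain ⟨S₃, hS₃⟩ := hart
  classical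
  obtain ⟨p, A, σ, hp, hpS, hA, hσ, hρσ⟩ := hCh ρ Ψ hyp (S₂ ∪ S₃)
  have hp2 : p ∉ S₂ := fun h => hpS (Finset.mem_union_left _ h)
  have hp3 : p ∉ S₃ := fun h => hpS (Finset.mem_union_right _ h)
  obtain ⟨w, hw, -⟩ := hP (fieldE ρ) p hp A hA
  obtain ⟨hsplit, -⟩ := hS₂ p hp hp2 A hA σ hσ w hw
  obtain ⟨ι⟩ : Nonempty (ℤ√(-2) →+* ℂ) :=
    ⟨Zsqrtd.lift ⟨Complex.I * (Real.sqrt 2 : ℂ), by
      have h : ((Real.sqrt 2 : ℝ) : ℂ) * ((Real.sqrt 2 : ℝ) : ℂ) = 2 := by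
        rw [← Complex.ofReal_mul, Real.mul_self_sqrt (by norm_num)]
        norm_num
      have hI : Complex.I * Complex.I = -1 := Complex.I_mul_I
      calc (Complex.I * (Real.sqrt 2 : ℂ)) * (Complex.I * (Real.sqrt 2 : ℂ))
          = (Complex.I * Complex.I) * (((Real.sqrt 2 : ℝ) : ℂ) * ((Real.sqrt 2 : ℝ) : ℂ)) := by
            ring
        _ = ((-2 : ℤ) : ℂ) := by rw [hI, h]; norm_num⟩⟩
  obtain ⟨-, hin, -⟩ := hG ρ Ψ hyp ι (ρ σ)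
  have hC : ρ σ ^ ordQ8 (ρ σ) ∈ C4 := by
    rw [hρσ, ordQ8_g0, pow_one]; exact g0_mem_C4
  obtain ⟨w₁, w₂, hne, hl₁, hl₂, hu₁, A₂, σ₂, t, hA₂, hσ₂, ht, hρ₂, hu₂⟩ := hsplit hC
  obtain ⟨z₁, hz₁⟩ := hU (fieldL ρ) w₁
  obtain ⟨z₂, hz₂⟩ := hU (fieldL ρ) w₂
  obtain ⟨hleast, hrest⟩ := hin hC
  obtain ⟨hleast₂, -, -, hneq⟩ := hrest t ht
  have a₁ := hS₃ p hp hp3 A hA σ hσ w₁ hu₁
  have a₂ := hS₃ p hp hp3 A₂ hA₂ σ₂ hσ₂ w₂ hu₂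
  have e₁ := a₁.2 _ hleast z₁ hz₁
  have e₂ := a₂.2 _ (by rw [hρ₂]; exact hleast₂) z₂ hz₂
  rw [hρ₂] at e₂
  refine ⟨w, w₁, w₂, z₁, z₂, hne, hl₁, hl₂, a₁.1, a₂.1, hz₁, hz₂, fun h => ?_⟩
  apply hneq hρσ
  rw [← e₁, ← e₂, h]

end Fermat.Agent.LT.A2.H38

end
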