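import Mathlib
import Fermat.Agent.LT.CFT.Spec
import Fermat.Agent.LT.A2.H38.GalSeedSpec

/-!
# Row LT, tower A2, branch GALSEED -- level 3: the interface with tower CFT

OFF-MAIN (helper38).  Consumes the OUTPUT of tower CFT (architect helper53),
`Fermat.Agent.LT.CFT.HeckeCharC` (`LT/CFT/Spec.lean`, origin/helper53@aa4e97721, VERBATIM):
every character of finite order of `G_K`, `K` totally complex, is the character of a Hecke
character.

    ArtinSeedC ⟸ CFT.HeckeCharC + TotCplxLC + CharRhoC + FinOrdC + FrobLC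
                                                       (`artinSeedC_of_leaves`, PROVED here)

| leaf | content | reference | size |
|---|---|---|---|
| `TotCplxLC` | `L` is totally complex | `ζ₃ ∈ E ⊂ L` | 100 on top of `TotCplxC` |
| `CharRhoC` | `χ_ρ = θ ∘ ρ : G_L → ℂˣ`, of finite order, `G_L = ρ⁻¹ C4` | infinite Galois correspondence (`ρ⁻¹ C4` is closed) | 400 |
| `FinOrdC` | a Hecke character of a character of finite order has finite order | weak approximation: `Kˣ · ∏'_{v ∉ S} K_vˣ` is dense in the ideles | 1500 |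
| `FrobLC` | for almost all `p`: `N(A ∩ L) = p ^ f`, `f` least with `ρ(σ)^f ∈ C4`, and `A ∩ L ∉ T` | decomposition groups, Neukirch ANT I (9.6) | 2000 |

Every Prop is a TRUE statement of mathematics (audit in the memo
`origin/helper38:coord/LT-A2-GalSeed-helper38.md`).
-/

set_option autoImplicit false

open IsDedekindDomain NumberField AutomorphicForm
open scoped MatrixGroups

noncomputable section

namespace Fermat.Agent.LT.A2.H38

open Fermat.Agent.LT.H130 Fermat.Agent.LT.H556 Fermat.Agent.LT.A2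

local notation "Γℚ" => (AlgebraicClosure ℚ ≃ₐ[ℚ] AlgebraicClosure ℚ)

/-- The inclusion `L ⊂ ℚ̄`. -/
def jL (ρ : Γℚ →* GL (Fin 2) (ZMod 3)) : fieldL ρ →+* AlgebraicClosure ℚ :=
  algebraMap (fieldL ρ) (AlgebraicClosure ℚ)

/-- **TOTCPLX-L.**  `L` is totally complex (`ζ₃ ∈ E ⊂ L`). -/
def TotCplxLC : Prop :=
  ∀ (ρ : Γℚ →* GL (Fin 2) (ZMod 3)) (Ψ : GL (Fin 2) (ZMod 3) →* GL (Fin 2) (ℤ√(-2))),
    LTB.Hyp ρ Ψ → ∀ [NumberField (fieldL ρ)], CFT.TotallyComplex (fieldL ρ)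

/-- **CHARRHO.**  The character `χ_ρ = θ ∘ ρ` of `G_L = ρ⁻¹(C4)`: of finite order (trivial on
`ker ρ`, whose fixed field is a number field), with values `θ(ρ σ)`. -/
def CharRhoC : Prop :=
  ∀ (ρ : Γℚ →* GL (Fin 2) (ZMod 3)) (Ψ : GL (Fin 2) (ZMod 3) →* GL (Fin 2) (ℤ√(-2))),
    LTB.Hyp ρ Ψ →
      ∃ χ : ↥(CFT.galOf (jL ρ)) →* ℂˣ, CFT.IsFiniteOrderChar (jL ρ) χ ∧
        ∀ σ : ↥(CFT.galOf (jL ρ)), ((χ σ : ℂˣ) : ℂ) = thetaVal (ρ (σ : Γℚ))

/-- **FINORD.**  A Hecke character attached to a Galois character of finite order has finite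
order: if `χ ^ n = 1` then `θ ^ n` is continuous and trivial on `Kˣ` and on `K_vˣ` for almost all
`v`, and `Kˣ · ∏'_{v ∉ S} K_vˣ` is dense in the idele group (weak approximation,
Cassels--Fröhlich II §15). -/
def FinOrdC : Prop :=
  ∀ (K : Type) [Field K] [NumberField K] (j : K →+* AlgebraicClosure ℚ)
    (χ : ↥(CFT.galOf j) →* ℂˣ) (θ : (A0.Adl K)ˣ →* ℂˣ),
    CFT.IsFiniteOrderChar j χ → CFT.IsHeckeCharOf j χ θ → IsFiniteOrder θ

/-- **FROB-L.**  For almost all `p`, every `A | p`, every Frobenius `σ` at `A` and the place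
`w = A ∩ L`: `w ∉ T` (a given finite set of places), and `N(w) = p ^ f` where `f` is the least
positive exponent with `ρ(σ) ^ f ∈ C4`, so that `σ ^ f` is a Frobenius at `A` over `L`. -/
def FrobLC : Prop :=
  ∀ (ρ : Γℚ →* GL (Fin 2) (ZMod 3)) (Ψ : GL (Fin 2) (ZMod 3) →* GL (Fin 2) (ℤ√(-2))),
    LTB.Hyp ρ Ψ → ∀ [NumberField (fieldL ρ)],
      ∀ T : Finset (HeightOneSpectrum (𝓞 (fieldL ρ))),
        ∃ S : Finset ℕ, ∀ p : ℕ, p.Prime → p ∉ S →
          ∀ A : ValuationSubring (AlgebraicClosure ℚ), A.LiesOverPrime p →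
            ∀ σ : Γℚ, A.IsFrobeniusAt σ p →
              ∀ w : HeightOneSpectrum (𝓞 (fieldL ρ)), PlaceUnder (fieldL ρ) A w →
                w ∉ T ∧ ∀ f : ℕ, IsLeastPowC4 (ρ σ) f →
                  A.IsFrobeniusAt (σ ^ f) (Nat.card (𝓞 (fieldL ρ) ⧸ w.asIdeal))

theorem mem_galOf_of_mem_C4 (ρ : Γℚ →* GL (Fin 2) (ZMod 3)) (τ : Γℚ) (h : ρ τ ∈ C4) :
    τ ∈ CFT.galOf (jL ρ) := by
  intro x
  have hx : (x : AlgebraicClosure ℚ) ∈ fieldL ρ := x.2
  exact (IntermediateField.mem_fixedField_iff _ _).mp hx τ (Subgroup.mem_comap.mpr h)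

/-- **ARTINSEED from the output of tower CFT and its transport leaves.** -/
theorem artinSeedC_of_leaves (hH : CFT.HeckeCharC) (hT : TotCplxLC) (hχ : CharRhoC)
    (hF : FinOrdC) (hL : FrobLC) : ArtinSeedC := by
  intro ρ Ψ hyp hNL
  obtain ⟨χ, hfo, hval⟩ := hχ ρ Ψ hyp
  obtain ⟨θ, hθ⟩ := hH (fieldL ρ) (jL ρ) (hT ρ Ψ hyp) χ hfo
  have hfin : IsFiniteOrder θ := hF (fieldL ρ) (jL ρ) χ θ hfo hθ
  obtain ⟨hcont, htriv, T, hT'⟩ := hθ
  refine ⟨θ, ⟨hcont, htriv⟩, hfin, ?_⟩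
  obtain ⟨S, hS⟩ := hL ρ Ψ hyp T
  refine ⟨S, fun p hp hpS A hA σ hσ w hw => ?_⟩
  obtain ⟨hwT, hfrob⟩ := hS p hp hpS A hA σ hσ w hw
  refine ⟨fun z hz => (hT' w hwT z hz.1).1 hz.2, fun f hf z hz => ?_⟩
  have hmem : ρ (σ ^ f) ∈ C4 := by rw [map_pow]; exact hf.2.1
  have hgal : σ ^ f ∈ CFT.galOf (jL ρ) := mem_galOf_of_mem_C4 ρ _ hmem
  have hfr : CFT.IsFrobAt (jL ρ) w (σ ^ f) := ⟨hgal, A, hw, hfrob f hf⟩
  have h1 := (hT' w hwT z hz.1).2 hz.2 ⟨σ ^ f, hgal⟩ hfr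
  rw [h1, hval ⟨σ ^ f, hgal⟩, map_pow]

end Fermat.Agent.LT.A2.H38

end
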