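import Mathlib
import Fermat.Agent.LT.H701.Psi
import Fermat.Agent.LT.A2.H38.MatchSpec

/-!
# Row LT, tower A2, branch GALSEED: leaf `GroupC` (helper38), PROVED

Finite group theory of `C4 ⊂ Q8 ⊂ GL₂(𝔽₃)` (brute force on `2 × 2` matrices over `ZMod 3`) and the
traces of `Ψ` on `Q8` (on top of helper701's `LT/H701/{Quat,GL23,Core,Psi}.lean`, byte-identical
copies: Cayley--Hamilton, `Ψ(-1) = -1`).
-/

set_option autoImplicit false

open Matrix FLT.ExplicitLift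

noncomputable section

namespace Fermat.Agent.LT.A2.H38

open Fermat.Agent.LT.H130 Fermat.Agent.LT.H701

local notation "Γℚ" => (AlgebraicClosure ℚ ≃ₐ[ℚ] AlgebraicClosure ℚ)

/-! ## Decidable forms on matrices -/

/-- The matrix of `g0`. -/
def G0m : Matrix (Fin 2) (Fin 2) (ZMod 3) := !![0, 2; 1, 0]

/-- Decidable form of `InQ8` on matrices. -/
def q8M (M : Matrix (Fin 2) (Fin 2) (ZMod 3)) : Prop :=
  M 0 0 * M 1 1 - M 0 1 * M 1 0 = 1 ∧ M ^ 4 = 1

instance decQ8M (M : Matrix (Fin 2) (Fin 2) (ZMod 3)) : Decidable (q8M M) := by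
  unfold q8M; infer_instance

/-- Decidable form of membership in `C4` on matrices. -/
def c4M (M : Matrix (Fin 2) (Fin 2) (ZMod 3)) : Prop :=
  M = 1 ∨ M = G0m ∨ M = G0m ^ 2 ∨ M = G0m ^ 3

instance decC4M (M : Matrix (Fin 2) (Fin 2) (ZMod 3)) : Decidable (c4M M) := by
  unfold c4M; infer_instance

/-- Decidable form of `ordQ8`. -/
def ordM (M : Matrix (Fin 2) (Fin 2) (ZMod 3)) : ℕ :=
  if q8M M then 1 else if q8M (M ^ 2) then 2 else 3

/-- Decidable form of `IsLeastPowC4`. -/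
def leastM (M : Matrix (Fin 2) (Fin 2) (ZMod 3)) (f : ℕ) : Prop :=
  0 < f ∧ c4M (M ^ f) ∧ ∀ k < f, 0 < k → ¬ c4M (M ^ k)

instance decLeastM (M : Matrix (Fin 2) (Fin 2) (ZMod 3)) (f : ℕ) : Decidable (leastM M f) := by
  unfold leastM; infer_instance

/-! ## Brute force -/

set_option maxRecDepth 100000 in
theorem bfIn : ∀ a b c e : ZMod 3, a * e - b * c ≠ 0 →
    c4M ((!![a, b; c, e] : Matrix (Fin 2) (Fin 2) (ZMod 3)) ^ ordM !![a, b; c, e]) →
    leastM !![a, b; c, e] (ordM !![a, b; c, e]) := by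
  decide

set_option maxRecDepth 100000 in
theorem bfOut : ∀ a b c e : ZMod 3, a * e - b * c ≠ 0 →
    ¬ c4M ((!![a, b; c, e] : Matrix (Fin 2) (Fin 2) (ZMod 3)) ^ ordM !![a, b; c, e]) →
    leastM !![a, b; c, e] (2 * ordM !![a, b; c, e]) ∧
    (!![a, b; c, e] : Matrix (Fin 2) (Fin 2) (ZMod 3)) ^ (2 * ordM !![a, b; c, e]) = G0m ^ 2 ∧
    ((!![a, b; c, e] : Matrix (Fin 2) (Fin 2) (ZMod 3)) ^ ordM !![a, b; c, e]) *
      ((!![a, b; c, e] : Matrix (Fin 2) (Fin 2) (ZMod 3)) ^ ordM !![a, b; c, e]) = -1 := by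
  decide

set_option maxRecDepth 100000 in
theorem bfConj : ∀ a b c e : ZMod 3,
    q8M !![a, b; c, e] → ¬ c4M !![a, b; c, e] →
    G0m * !![a, b; c, e] * G0m = !![a, b; c, e] := by
  decide

theorem bfScalar : ∀ c : ZMod 3, c * c + 0 * 0 ≠ -1 := by decide

/-! ## Dictionary `GL₂(𝔽₃)` ↔ matrices -/

theorem g0_val : (g0 : Matrix (Fin 2) (Fin 2) (ZMod 3)) = G0m := rfl

theorem val_eta (g : GL (Fin 2) (ZMod 3)) :
    (g : Matrix (Fin 2) (Fin 2) (ZMod 3)) = !![g.val 0 0, g.val 0 1; g.val 1 0, g.val 1 1] :=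
  Matrix.eta_fin_two _

theorem det_ne_zero_val (g : GL (Fin 2) (ZMod 3)) :
    g.val 0 0 * g.val 1 1 - g.val 0 1 * g.val 1 0 ≠ 0 := by
  have h : IsUnit (g.val.det) := (Matrix.isUnit_iff_isUnit_det _).mp g.isUnit
  rw [Matrix.det_fin_two] at h
  exact h.ne_zero

theorem inQ8_iff (g : GL (Fin 2) (ZMod 3)) : InQ8 g ↔ q8M g.val := by
  unfold InQ8 q8M
  constructor
  · rintro ⟨h1, h2⟩
    refine ⟨det_val_h701 g h1, ?_⟩
    rw [← Units.val_pow_eq_pow_val, h2]
    rfl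
  · rintro ⟨h1, h2⟩
    refine ⟨Units.ext ?_, Units.ext ?_⟩
    · rw [Matrix.GeneralLinearGroup.val_det_apply, Matrix.det_fin_two]
      exact h1
    · rw [Units.val_pow_eq_pow_val, h2]
      rfl

theorem g0_zpow_four : g0 ^ (4 : ℤ) = 1 := by
  have h : g0 ^ (4 : ℤ) = g0 ^ (4 : ℕ) := by
    rw [← zpow_natCast]; rfl
  rw [h, g0_pow_four]

theorem mem_C4_iff (h : GL (Fin 2) (ZMod 3)) : h ∈ C4 ↔ c4M h.val := by
  unfold c4M
  constructor
  · intro hh
    obtain ⟨k, rfl⟩ := Subgroup.mem_zpowers_iff.mp hh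
    have hk : g0 ^ k = g0 ^ (k % 4) := by
      conv_lhs => rw [← Int.emod_add_mul_ediv k 4]
      rw [_root_.zpow_add, _root_.zpow_mul, g0_zpow_four, _root_.one_zpow, mul_one]
    rw [hk]
    have h0 : 0 ≤ k % 4 := Int.emod_nonneg k (by norm_num)
    have h4 : k % 4 < 4 := Int.emod_lt_of_pos k (by norm_num)
    obtain ⟨n, hn⟩ := Int.eq_ofNat_of_zero_le h0
    have hn4 : n < 4 := by omega
    rw [hn, zpow_natCast]
    interval_cases n
    · left; rw [pow_zero]; rfl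
    · right; left; rw [pow_one]; rfl
    · right; right; left
      rw [Units.val_pow_eq_pow_val]; rfl
    · right; right; right
      rw [Units.val_pow_eq_pow_val]; rfl
  · rintro (h1 | h1 | h1 | h1)
    · have : h = 1 := Units.ext h1
      rw [this]; exact Subgroup.one_mem _
    · have : h = g0 := Units.ext h1
      rw [this]; exact Subgroup.mem_zpowers g0
    · have : h = g0 ^ 2 := Units.ext (by rw [Units.val_pow_eq_pow_val]; exact h1)
      rw [this]; exact Subgroup.pow_mem _ (Subgroup.mem_zpowers g0) 2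
    · have : h = g0 ^ 3 := Units.ext (by rw [Units.val_pow_eq_pow_val]; exact h1)
      rw [this]; exact Subgroup.pow_mem _ (Subgroup.mem_zpowers g0) 3

theorem ordQ8_eq (g : GL (Fin 2) (ZMod 3)) : ordQ8 g = ordM g.val := by
  unfold ordQ8 ordM
  by_cases h1 : InQ8 g
  · rw [if_pos h1, if_pos ((inQ8_iff g).mp h1)]
  · rw [if_neg h1, if_neg (fun h => h1 ((inQ8_iff g).mpr h))]
    by_cases h2 : InQ8 (g ^ 2)
    · have h2' : q8M (g.val ^ 2) := by
        have := (inQ8_iff (g ^ 2)).mp h2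
        rwa [Units.val_pow_eq_pow_val] at this
      rw [if_pos h2, if_pos h2']
    · have h2' : ¬ q8M (g.val ^ 2) := fun h =>
        h2 ((inQ8_iff (g ^ 2)).mpr (by rwa [Units.val_pow_eq_pow_val]))
      rw [if_neg h2, if_neg h2']

theorem isLeast_iff (g : GL (Fin 2) (ZMod 3)) (f : ℕ) : IsLeastPowC4 g f ↔ leastM g.val f := by
  unfold IsLeastPowC4 leastM
  constructor
  · rintro ⟨h0, h1, h2⟩
    refine ⟨h0, ?_, fun k hk hk0 hc => h2 k hk0 hk ?_⟩
    · have := (mem_C4_iff (g ^ f)).mp h1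
      rwa [Units.val_pow_eq_pow_val] at this
    · exact (mem_C4_iff (g ^ k)).mpr (by rwa [Units.val_pow_eq_pow_val])
  · rintro ⟨h0, h1, h2⟩
    refine ⟨h0, ?_, fun k hk0 hk hc => h2 k hk hk0 ?_⟩
    · exact (mem_C4_iff (g ^ f)).mpr (by rwa [Units.val_pow_eq_pow_val])
    · have := (mem_C4_iff (g ^ k)).mp hc
      rwa [Units.val_pow_eq_pow_val] at this

/-! ## Conjugation -/

theorem inQ8_conj (x h : GL (Fin 2) (ZMod 3)) : InQ8 (x * h * x⁻¹) ↔ InQ8 h := by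
  unfold InQ8
  rw [map_mul, map_mul, map_inv, mul_comm (Matrix.GeneralLinearGroup.det x), mul_assoc,
    mul_inv_cancel, mul_one, conj_pow, conj_eq_one_iff]

theorem ordQ8_conj (x g : GL (Fin 2) (ZMod 3)) : ordQ8 (x * g * x⁻¹) = ordQ8 g := by
  unfold ordQ8
  by_cases h1 : InQ8 g
  · rw [if_pos h1, if_pos ((inQ8_conj x g).mpr h1)]
  · rw [if_neg h1, if_neg (fun h => h1 ((inQ8_conj x g).mp h))]
    by_cases h2 : InQ8 (g ^ 2)
    · rw [if_pos h2, if_pos (by rw [conj_pow]; exact (inQ8_conj x _).mpr h2)]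
    · rw [if_neg h2, if_neg (by rw [conj_pow]; exact fun h => h2 ((inQ8_conj x _).mp h))]

theorem trΨ_conj (Ψ : GL (Fin 2) (ZMod 3) →* GL (Fin 2) (ℤ√(-2))) (ι : ℤ√(-2) →+* ℂ)
    (x h : GL (Fin 2) (ZMod 3)) : trΨ Ψ ι (x * h * x⁻¹) = trΨ Ψ ι h := by
  unfold trΨ
  congr 1
  rw [map_mul, map_mul, map_inv, Units.val_mul, Units.val_mul, Matrix.trace_mul_comm,
    ← mul_assoc, ← Units.val_mul, inv_mul_cancel, Units.val_one, one_mul]

/-! ## Traces of `Ψ` on `Q8` -/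

section Psi

variable (Ψ : GL (Fin 2) (ZMod 3) →* GL (Fin 2) (ℤ√(-2)))
  (hΨ : ∀ g, Matrix.GeneralLinearGroup.map red (Ψ g) = g) (ι : ℤ√(-2) →+* ℂ)

theorem trΨ_one : trΨ Ψ ι 1 = 2 := by
  unfold trΨ
  rw [map_one, Units.val_one, Matrix.trace_one]
  simp only [Fintype.card_fin, Nat.cast_ofNat]
  exact map_ofNat ι 2

include hΨ

theorem trΨ_neg_one : trΨ Ψ ι (-1) = -2 := by
  unfold trΨ
  rw [← trace_rhom_h701, rhom_neg_one_h701 Ψ hΨ ι]
  simp

theorem trΨ_of_sq (h : GL (Fin 2) (ZMod 3)) (hh : h * h = -1) : trΨ Ψ ι h = 0 := by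
  unfold trΨ
  rw [← trace_rhom_h701]
  have hsq : (rhom_h701 ι Ψ h).val * (rhom_h701 ι Ψ h).val = -1 := by
    rw [← Units.val_mul, ← map_mul, hh, rhom_neg_one_h701 Ψ hΨ ι]
    rfl
  have hCH := sq_eq_h701 (rhom_h701 ι Ψ h).val
  rw [hsq] at hCH
  by_contra htr
  have e01 := congrFun (congrFun hCH 0) 1
  have e10 := congrFun (congrFun hCH 1) 0
  have e00 := congrFun (congrFun hCH 0) 0
  have e11 := congrFun (congrFun hCH 1) 1
  simp only [Matrix.sub_apply, Matrix.smul_apply, Matrix.neg_apply, Matrix.one_apply,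
    smul_eq_mul] at e01 e10 e00 e11
  simp at e01 e10 e00 e11
  have h01 : (rhom_h701 ι Ψ h).val 0 1 = 0 := by
    rcases e01 with h | h
    · exact absurd h htr
    · exact h
  have h10 : (rhom_h701 ι Ψ h).val 1 0 = 0 := by
    rcases e10 with h | h
    · exact absurd h htr
    · exact h
  have hd : (rhom_h701 ι Ψ h).val 0 0 = (rhom_h701 ι Ψ h).val 1 1 := by
    have h3 : (rhom_h701 ι Ψ h).val.trace *
        ((rhom_h701 ι Ψ h).val 0 0 - (rhom_h701 ι Ψ h).val 1 1) = 0 := by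
      linear_combination e11 - e00
    rcases mul_eq_zero.mp h3 with h | h
    · exact absurd h htr
    · exact sub_eq_zero.mp h
  -- transfer to `Ψ h`, then to `h`
  have v01 : (Ψ h).val 0 1 = 0 := iota_injective_h701 ι (by rw [map_zero]; exact h01)
  have v10 : (Ψ h).val 1 0 = 0 := iota_injective_h701 ι (by rw [map_zero]; exact h10)
  have vd : (Ψ h).val 0 0 = (Ψ h).val 1 1 := iota_injective_h701 ι hd
  have r := red_val_h701 Ψ hΨ h
  have k01 : h.val 0 1 = 0 := by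
    rw [← r, Matrix.map_apply, v01, map_zero]
  have k10 : h.val 1 0 = 0 := by
    rw [← r, Matrix.map_apply, v10, map_zero]
  have key : (h * h).val 0 0 = (-1 : GL (Fin 2) (ZMod 3)).val 0 0 := by rw [hh]
  rw [Units.val_mul, Matrix.mul_apply, Fin.sum_univ_two, k01, k10] at key
  exact bfScalar (h.val 0 0) key

end Psi

/-! ## Values of `θ` -/

theorem thetaVal_one : thetaVal 1 = 1 := by
  unfold thetaVal
  rw [if_pos rfl]

theorem thetaVal_g0 : thetaVal g0 = Complex.I := by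
  unfold thetaVal
  rw [if_neg (by decide), if_pos rfl]

theorem thetaVal_g0_sq : thetaVal (g0 ^ 2) = -1 := by
  unfold thetaVal
  rw [if_neg (by decide), if_neg (by decide), if_pos rfl]

theorem thetaVal_g0_cube : thetaVal (g0 ^ 3) = -Complex.I := by
  unfold thetaVal
  rw [if_neg (by decide), if_neg (by decide), if_neg (by decide), if_pos rfl]

theorem g0_sq_eq : g0 ^ 2 = -1 := Units.ext (by decide)

theorem g0_mul_self : g0 * g0 = -1 := Units.ext (by decide)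

theorem g0_cube_mul_self : g0 ^ 3 * g0 ^ 3 = -1 := Units.ext (by decide)

theorem g0_inv : g0⁻¹ = g0 ^ 3 := by
  rw [inv_eq_iff_eq_inv, eq_inv_iff_mul_eq_one]
  exact Units.ext (by decide)

theorem g0_sq_inv : (g0 ^ 2)⁻¹ = g0 ^ 2 := by
  rw [inv_eq_iff_eq_inv, eq_inv_iff_mul_eq_one]
  exact Units.ext (by decide)

theorem g0_cube_inv : (g0 ^ 3)⁻¹ = g0 := by
  rw [inv_eq_iff_eq_inv, eq_inv_iff_mul_eq_one]
  exact Units.ext (by decide)

theorem eq_of_mem_C4 (h : GL (Fin 2) (ZMod 3)) (hh : h ∈ C4) :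
    h = 1 ∨ h = g0 ∨ h = g0 ^ 2 ∨ h = g0 ^ 3 := by
  rcases (mem_C4_iff h).mp hh with h1 | h1 | h1 | h1
  · exact Or.inl (Units.ext h1)
  · exact Or.inr (Or.inl (Units.ext h1))
  · exact Or.inr (Or.inr (Or.inl (Units.ext (by rw [Units.val_pow_eq_pow_val]; exact h1))))
  · exact Or.inr (Or.inr (Or.inr (Units.ext (by rw [Units.val_pow_eq_pow_val]; exact h1))))

/-- `θ(h) + θ(h⁻¹) = tr Ψ h`, `θ(h) θ(h⁻¹) = 1` on `C4`. -/
theorem theta_sum_prod (Ψ : GL (Fin 2) (ZMod 3) →* GL (Fin 2) (ℤ√(-2)))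
    (hΨ : ∀ g, Matrix.GeneralLinearGroup.map red (Ψ g) = g) (ι : ℤ√(-2) →+* ℂ)
    (h : GL (Fin 2) (ZMod 3)) (hh : h ∈ C4) :
    thetaVal h + thetaVal h⁻¹ = trΨ Ψ ι h ∧ thetaVal h * thetaVal h⁻¹ = 1 := by
  rcases eq_of_mem_C4 h hh with rfl | rfl | rfl | rfl
  · rw [inv_one, thetaVal_one, trΨ_one]
    constructor <;> norm_num
  · rw [g0_inv, thetaVal_g0, thetaVal_g0_cube, trΨ_of_sq Ψ hΨ ι g0 g0_mul_self]
    constructor
    · ring
    · have := Complex.I_mul_I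
      linear_combination -this
  · rw [g0_sq_inv, thetaVal_g0_sq, g0_sq_eq, trΨ_neg_one Ψ hΨ ι]
    constructor <;> norm_num
  · rw [g0_cube_inv, thetaVal_g0, thetaVal_g0_cube,
      trΨ_of_sq Ψ hΨ ι (g0 ^ 3) g0_cube_mul_self]
    constructor
    · ring
    · have := Complex.I_mul_I
      linear_combination -this

/-! ## Conjugation by `Q8 ∖ C4` inverts `C4` -/

theorem conj_g0 (t : GL (Fin 2) (ZMod 3)) (ht : InQ8NotC4 t) : t * g0 * t⁻¹ = g0⁻¹ := by
  have h1 : q8M t.val := (inQ8_iff t).mp ht.1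
  have h2 : ¬ c4M t.val := fun h => ht.2 ((mem_C4_iff t).mpr h)
  rw [val_eta t] at h1 h2
  have key := bfConj _ _ _ _ h1 h2
  rw [← val_eta t] at key
  have key' : g0 * t * g0 = t := Units.ext (by
    rw [Units.val_mul, Units.val_mul]; exact key)
  have h3 : t * g0 = g0⁻¹ * t := by
    rw [eq_inv_mul_iff_mul_eq, ← mul_assoc]; exact key'
  rw [h3, mul_inv_cancel_right]

theorem conj_C4 (t : GL (Fin 2) (ZMod 3)) (ht : InQ8NotC4 t) (h : GL (Fin 2) (ZMod 3))
    (hh : h ∈ C4) : t * h * t⁻¹ = h⁻¹ := by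
  obtain ⟨k, rfl⟩ := Subgroup.mem_zpowers_iff.mp hh
  rw [← conj_zpow, conj_g0 t ht, _root_.inv_zpow]

theorem conj_mem_C4_iff (t : GL (Fin 2) (ZMod 3)) (ht : InQ8NotC4 t) (h : GL (Fin 2) (ZMod 3)) :
    t * h * t⁻¹ ∈ C4 ↔ h ∈ C4 := by
  constructor
  · intro hc
    have h1 := conj_C4 t ht _ hc
    -- t * (t * h * t⁻¹) * t⁻¹ = (t * h * t⁻¹)⁻¹ ∈ C4, and t² is central in Q8: avoid, use inverse
    have h2 : h = t⁻¹ * (t * h * t⁻¹) * t := by group
    have h3 : t * (t * h * t⁻¹)⁻¹ * t⁻¹ = t * h * t⁻¹ := by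
      have := conj_C4 t ht _ (C4.inv_mem hc)
      rw [this, inv_inv]
    -- from h3: (t h t⁻¹)⁻¹ = h
    have h4 : (t * h * t⁻¹)⁻¹ = h := by
      have h5 : t * (t * h * t⁻¹)⁻¹ * t⁻¹ = t * h * t⁻¹ := h3
      have h6 : t * (t * h * t⁻¹)⁻¹ = t * h := by
        have := congrArg (· * t) h5
        simpa [mul_assoc] using this
      exact mul_left_cancel h6
    rw [← h4]
    exact C4.inv_mem hc
  · intro hc
    rw [conj_C4 t ht h hc]
    exact C4.inv_mem hc

/-! ## The leaf -/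

/-- **Leaf `GroupC`.** -/
theorem groupC : GroupC := by
  intro ρ Ψ hyp ι g
  have hΨ := hyp.lift
  refine ⟨fun x => ?_, fun hC => ?_, fun hC => ?_⟩
  · rw [ordQ8_conj, conj_pow, trΨ_conj]
  · have hC' : c4M (g.val ^ ordM g.val) := by
      have := (mem_C4_iff _).mp hC
      rwa [Units.val_pow_eq_pow_val, ordQ8_eq] at this
    have hl : IsLeastPowC4 g (ordQ8 g) := by
      rw [isLeast_iff, ordQ8_eq]
      have := bfIn _ _ _ _ (det_ne_zero_val g) (by rw [← val_eta g]; exact hC')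
      rwa [← val_eta g] at this
    refine ⟨hl, fun t ht => ?_⟩
    have hpow : (t * g * t⁻¹) ^ ordQ8 g = (g ^ ordQ8 g)⁻¹ := by
      rw [conj_pow, conj_C4 t ht _ hC]
    obtain ⟨hsum, hprod⟩ := theta_sum_prod Ψ hΨ ι _ hC
    refine ⟨⟨hl.1, ?_, fun k hk0 hk hc => ?_⟩, ?_, ?_, ?_⟩
    · rw [hpow]; exact C4.inv_mem hC
    · rw [conj_pow] at hc
      exact hl.2.2 k hk0 hk ((conj_mem_C4_iff t ht _).mp hc)
    · rw [hpow]; exact hsum
    · rw [hpow]; exact hprod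
    · intro hg
      rw [hpow, hg, ordQ8_g0, pow_one, g0_inv, thetaVal_g0, thetaVal_g0_cube]
      intro h
      have h2 : (2 : ℂ) * Complex.I = 0 := by linear_combination h
      have h3 : Complex.I = 0 := by
        rcases mul_eq_zero.mp h2 with h | h
        · exact absurd h (by norm_num)
        · exact h
      exact Complex.I_ne_zero h3
  · have hC' : ¬ c4M (g.val ^ ordM g.val) := by
      intro h
      apply hC
      apply (mem_C4_iff _).mpr
      rwa [Units.val_pow_eq_pow_val, ordQ8_eq]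
    have key := bfOut _ _ _ _ (det_ne_zero_val g) (by rw [← val_eta g]; exact hC')
    rw [← val_eta g] at key
    obtain ⟨k1, k2, k3⟩ := key
    refine ⟨?_, ?_, ?_⟩
    · rw [isLeast_iff, ordQ8_eq]; exact k1
    · have : g ^ (2 * ordQ8 g) = g0 ^ 2 := Units.ext (by
        rw [Units.val_pow_eq_pow_val, Units.val_pow_eq_pow_val, ordQ8_eq]; exact k2)
      rw [this, thetaVal_g0_sq]
    · apply trΨ_of_sq Ψ hΨ ι
      apply Units.ext
      rw [Units.val_mul, Units.val_pow_eq_pow_val, ordQ8_eq]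
      exact k3

end Fermat.Agent.LT.A2.H38

end
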