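import Mathlib
import Fermat.Agent.LT.A2.H38.GalSeedSpec

/-!
# Row LT, tower A2, branch GALSEED: leaf `IotaC` (helper38), PROVED

A ring homomorphism `ℤ[√-2] → ℂ` (`√-2 ↦ i √2`).
-/

set_option autoImplicit false

noncomputable section

namespace Fermat.Agent.LT.A2.H38

theorem sqrtNegTwo_mul_self :
    (Complex.I * (Real.sqrt 2 : ℂ)) * (Complex.I * (Real.sqrt 2 : ℂ)) = ((-2 : ℤ) : ℂ) := by
  have h : ((Real.sqrt 2 : ℝ) : ℂ) * ((Real.sqrt 2 : ℝ) : ℂ) = 2 := by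
    rw [← Complex.ofReal_mul, Real.mul_self_sqrt (by norm_num)]
    norm_num
  have hI : Complex.I * Complex.I = -1 := Complex.I_mul_I
  calc (Complex.I * (Real.sqrt 2 : ℂ)) * (Complex.I * (Real.sqrt 2 : ℂ))
      = (Complex.I * Complex.I) * (((Real.sqrt 2 : ℝ) : ℂ) * ((Real.sqrt 2 : ℝ) : ℂ)) := by ring
    _ = ((-2 : ℤ) : ℂ) := by rw [hI, h]; norm_num

/-- The embedding `ℤ[√-2] → ℂ`, `√-2 ↦ i √2`. -/
def iota38 : ℤ√(-2) →+* ℂ :=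
  Zsqrtd.lift ⟨Complex.I * (Real.sqrt 2 : ℂ), sqrtNegTwo_mul_self⟩

/-- **Leaf `IotaC`.** -/
theorem iotaC : IotaC := ⟨iota38⟩

end Fermat.Agent.LT.A2.H38

end
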