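import Fermat.Agent.LT.A2.H38.MatchSpec
import Fermat.Agent.LT.A2.H38.ArtinSeedSpec
import Fermat.Agent.LT.A2.H38.Iota
import Fermat.Agent.LT.A2.H38.Group

/-!
# Row LT, tower A2, branch GALSEED -- the PROVED branch top (helper38), RUNNING

    GalSeedC ⟸ CFT.HeckeCharC (tower CFT, helper53)
               + NumFieldsC + TotCplxC + DegTwoC                      (fields)
               + TotCplxLC + CharRhoC + FinOrdC + FrobLC              (transport of Artin)
               + LevelPrimesC + UnifIdeleC + PlaceExistsC + ConjPlaceC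
               + SplitInertC + ChebG0C                                 (matching, non-invariance)

PROVED and plugged: `IotaC` (`Iota.lean`), `GroupC` (`Group.lean`).
Registry rows `A2.01.xx` (table `subtasks`, stmt `LT`).
-/

set_option autoImplicit false

namespace Fermat.Agent.LT.A2.H38

open Fermat.Agent.LT.A2

/-- **The GALSEED branch from all its leaves and the output of tower CFT.** -/
theorem galSeedC_of_all (hH : Fermat.Agent.LT.CFT.HeckeCharC)
    (h02 : NumFieldsC) (h03 : TotCplxC) (h04 : DegTwoC) (h06 : TotCplxLC) (h07 : CharRhoC)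
    (h08 : FinOrdC) (h09 : FrobLC) (hLP : LevelPrimesC) (hU : UnifIdeleC) (hP : PlaceExistsC)
    (hCP : ConjPlaceC) (hSI : SplitInertC) (hG : GroupC) (hCh : ChebG0C) : GalSeedC :=
  galSeedC_of_leaves iotaC h02 h03 h04 (artinSeedC_of_leaves hH h06 h07 h08 h09)
    (nonInvC_of_leaves hCh hP hU hSI hG) (matchC_of_leaves hLP hU hCP hSI hG)

/-- **RUNNING TOP: the GALSEED branch from its OPEN leaves.** -/
theorem galSeedC_of_open (hH : Fermat.Agent.LT.CFT.HeckeCharC)
    (h02 : NumFieldsC) (h03 : TotCplxC) (h04 : DegTwoC) (h06 : TotCplxLC) (h07 : CharRhoC)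
    (h08 : FinOrdC) (h09 : FrobLC) (hLP : LevelPrimesC) (hU : UnifIdeleC) (hP : PlaceExistsC)
    (hCP : ConjPlaceC) (hSI : SplitInertC) (hCh : ChebG0C) : GalSeedC :=
  galSeedC_of_all hH h02 h03 h04 h06 h07 h08 h09 hLP hU hP hCP hSI groupC hCh

end Fermat.Agent.LT.A2.H38
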