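import Mathlib
import Fermat.Agent.LT.A2.H38.Group
import Fermat.Agent.LT.A2.H800.NonInv

/-!
# Row LT, tower A2, branch GALSEED: leaf `SplitInertC`, group theory (helper38)

Brute force on `2 × 2` matrices over `ZMod 3` and its consequences in `GL₂(𝔽₃)`:
`ordQ8 g` is the least exponent into `Q8`; the product of two elements of `Q8 ∖ C4` lies in `C4`.
-/

set_option autoImplicit false

open Matrix

namespace Fermat.Agent.LT.A2.H38.SI

open Fermat.Agent.LT.H130 Fermat.Agent.LT.A2.H38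

/-! ## Brute force -/

set_option maxRecDepth 100000 in
theorem bfOrd : ∀ a b c e : ZMod 3, a * e - b * c ≠ 0 →
    q8M ((!![a, b; c, e] : Matrix (Fin 2) (Fin 2) (ZMod 3)) ^ ordM !![a, b; c, e]) ∧
    0 < ordM !![a, b; c, e] ∧
    ∀ k < ordM !![a, b; c, e], 0 < k →
      ¬ q8M ((!![a, b; c, e] : Matrix (Fin 2) (Fin 2) (ZMod 3)) ^ k) := by
  decide

set_option maxRecDepth 100000 in
theorem bfMul : ∀ a b c e a' b' c' e' : ZMod 3,
    q8M !![a, b; c, e] → ¬ c4M !![a, b; c, e] → q8M !![a', b'; c', e'] →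
    ¬ c4M !![a', b'; c', e'] →
    c4M ((!![a, b; c, e] : Matrix (Fin 2) (Fin 2) (ZMod 3)) * !![a', b'; c', e']) := by
  decide

/-! ## Consequences in `GL₂(𝔽₃)` -/

theorem ordQ8_spec (g : GL (Fin 2) (ZMod 3)) :
    InQ8 (g ^ ordQ8 g) ∧ 0 < ordQ8 g ∧ ∀ k < ordQ8 g, 0 < k → ¬ InQ8 (g ^ k) := by
  have key := bfOrd _ _ _ _ (det_ne_zero_val g)
  rw [← val_eta g, ← ordQ8_eq] at key
  obtain ⟨k1, k2, k3⟩ := key
  refine ⟨?_, k2, fun k hk hk0 hc => k3 k hk hk0 ?_⟩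
  · rw [inQ8_iff, Units.val_pow_eq_pow_val]; exact k1
  · have := (inQ8_iff (g ^ k)).mp hc
    rwa [Units.val_pow_eq_pow_val] at this

theorem isLeast_of_mem (g : GL (Fin 2) (ZMod 3)) (hC : g ^ ordQ8 g ∈ C4) :
    IsLeastPowC4 g (ordQ8 g) := by
  have hC' : c4M (g.val ^ ordM g.val) := by
    have := (mem_C4_iff _).mp hC
    rwa [Units.val_pow_eq_pow_val, ordQ8_eq] at this
  rw [isLeast_iff, ordQ8_eq]
  have := bfIn _ _ _ _ (det_ne_zero_val g) (by rw [← val_eta g]; exact hC')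
  rwa [← val_eta g] at this

theorem inQ8_of_mem_C4 {h : GL (Fin 2) (ZMod 3)} (hh : h ∈ C4) : InQ8 h := by
  obtain ⟨k, rfl⟩ := Subgroup.mem_zpowers_iff.mp hh
  refine ⟨?_, ?_⟩
  · rw [map_zpow, det_g0, _root_.one_zpow]
  · rw [← zpow_natCast, ← _root_.zpow_mul, mul_comm, _root_.zpow_mul, zpow_natCast, g0_pow_four,
      _root_.one_zpow]

theorem inQ8_inv {a : GL (Fin 2) (ZMod 3)} (ha : InQ8 a) : InQ8 a⁻¹ :=
  ⟨by rw [map_inv, ha.1, inv_one], by rw [inv_pow, ha.2, inv_one]⟩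

theorem inQ8NotC4_inv {a : GL (Fin 2) (ZMod 3)} (ha : InQ8NotC4 a) : InQ8NotC4 a⁻¹ :=
  ⟨inQ8_inv ha.1, fun h => ha.2 (by simpa using C4.inv_mem h)⟩

theorem mul_mem_C4_of_not {a b : GL (Fin 2) (ZMod 3)} (ha : InQ8NotC4 a) (hb : InQ8NotC4 b) :
    a * b ∈ C4 := by
  have a1 : q8M a.val := (inQ8_iff a).mp ha.1
  have a2 : ¬ c4M a.val := fun h => ha.2 ((mem_C4_iff a).mpr h)
  have b1 : q8M b.val := (inQ8_iff b).mp hb.1
  have b2 : ¬ c4M b.val := fun h => hb.2 ((mem_C4_iff b).mpr h)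
  rw [val_eta a] at a1 a2
  rw [val_eta b] at b1 b2
  have key := bfMul _ _ _ _ _ _ _ _ a1 a2 b1 b2
  rw [← val_eta a, ← val_eta b] at key
  rw [mem_C4_iff, Units.val_mul]
  exact key

theorem t0_notC4 : InQ8NotC4 Fermat.Agent.LT.A2.H800.t0 := by
  refine ⟨⟨Fermat.Agent.LT.A2.H800.det_t0, Fermat.Agent.LT.A2.H800.t0_pow_four⟩, fun h => ?_⟩
  have := (mem_C4_iff _).mp h
  revert this
  decide

end Fermat.Agent.LT.A2.H38.SI
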