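import Mathlib
import Fermat.Agent.Lib.Cheb.H476.FrobConj
import Fermat.Agent.LT.A2.H38.SplitInertBF
import Fermat.Agent.LT.A2.H138.FrobL
import Fermat.Agent.LT.A2.H230.GalSeedFields

/-!
# Row LT, tower A2, branch GALSEED: leaf `SplitInertC`, the residue degree over `E` (helper38)

`N(A ∩ E) = p ^ ordQ8 (ρ σ)` for almost all `p` (same proof as `card_quot_eq138` of helper138 for
`L`, with `Q8` in place of `C4`).
-/

set_option autoImplicit false

open IsDedekindDomain NumberField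
open scoped Pointwise

noncomputable section

namespace Fermat.Agent.LT.A2.H38.SI

open Fermat.Agent.LT.H130 Fermat.Agent.LT.A2 Fermat.Agent.LT.A2.H38
open Fermat.Agent.LT.A2.H138 Fermat.Agent.LT.A2.H230

local notation "Qb" => AlgebraicClosure ℚ
local notation "Γℚ" => (AlgebraicClosure ℚ ≃ₐ[ℚ] AlgebraicClosure ℚ)

/-- An element of `G_ℚ` fixing `E` pointwise lies in `ρ⁻¹(Q8)`. -/
theorem inQ8_of_fixesE (ρ : Γℚ →* GL (Fin 2) (ZMod 3)) (hρ : Continuous ρ) {τ : Γℚ}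
    (h : ∀ x ∈ fieldE ρ, τ x = x) : InQ8 (ρ τ) := by
  have h2 : τ ∈ (fieldE ρ).fixingSubgroup :=
    (IntermediateField.mem_fixingSubgroup_iff _ _).mpr h
  rw [fixingSubgroup_fieldE230 hρ, subQ8_eq_comap230] at h2
  exact mem_Q8grp230.mp (Subgroup.mem_comap.mp h2)

/-- Elements of `ρ⁻¹(Q8)` fix `E` pointwise. -/
theorem fixesE_of_inQ8 (ρ : Γℚ →* GL (Fin 2) (ZMod 3)) {τ : Γℚ} (h : InQ8 (ρ τ))
    {x : Qb} (hx : x ∈ fieldE ρ) : τ x = x :=
  (IntermediateField.mem_fixedField_iff _ _).mp hx τ (Subgroup.subset_closure ⟨h.1, h.2⟩)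

/-- **The cardinality of the residue field of `w = A ∩ E`.** -/
theorem card_quot_E (ρ : Γℚ →* GL (Fin 2) (ZMod 3)) (hρ : Continuous ρ)
    [NumberField (fieldE ρ)] (b : 𝓞 (fieldE ρ))
    (hb : ∀ τ : Γℚ, τ (((b : fieldE ρ)) : Qb) = (((b : fieldE ρ)) : Qb) →
      ∀ x ∈ fieldE ρ, τ x = x)
    {p : ℕ} (hp : p.Prime) (A : ValuationSubring Qb) (hA : A.LiesOverPrime p)
    (hsep : ∀ τ : Γℚ, τ (((b : fieldE ρ)) : Qb) - (((b : fieldE ρ)) : Qb) ∈ A.nonunits →
      τ (((b : fieldE ρ)) : Qb) = (((b : fieldE ρ)) : Qb))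
    {σ : Γℚ} (hσ : A.IsFrobeniusAt σ p)
    {w : HeightOneSpectrum (𝓞 (fieldE ρ))} (hw : PlaceUnder (fieldE ρ) A w) :
    Nat.card (𝓞 (fieldE ρ) ⧸ w.asIdeal) = p ^ ordQ8 (ρ σ) := by
  classical
  obtain ⟨hQ, hf0, hleast⟩ := ordQ8_spec (ρ σ)
  set f := ordQ8 (ρ σ) with hfdef
  have : w.asIdeal.IsMaximal := w.isMaximal
  let _ : Field (𝓞 (fieldE ρ) ⧸ w.asIdeal) := Ideal.Quotient.field w.asIdeal
  have : Finite (𝓞 (fieldE ρ) ⧸ w.asIdeal) :=
    Ideal.finiteQuotientOfFreeOfNeBot w.asIdeal w.ne_bot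
  let _ : Fintype (𝓞 (fieldE ρ) ⧸ w.asIdeal) := Fintype.ofFinite _
  have hpw := natCast_mem_of_placeUnder138 (fieldE ρ) hA hw
  have : CharP (𝓞 (fieldE ρ) ⧸ w.asIdeal) p := by
    rw [CharP.charP_iff_prime_eq_zero hp]
    have : ((p : ℕ) : 𝓞 (fieldE ρ) ⧸ w.asIdeal)
        = Ideal.Quotient.mk w.asIdeal ((p : ℕ) : 𝓞 (fieldE ρ)) := by
      rw [map_natCast]
    rw [this]
    exact Ideal.Quotient.eq_zero_iff_mem.mpr hpw
  obtain ⟨n, -, hcard⟩ := FiniteField.card (𝓞 (fieldE ρ) ⧸ w.asIdeal) p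
  let ι : (𝓞 (fieldE ρ) ⧸ w.asIdeal) →+* IsLocalRing.ResidueField A :=
    Ideal.Quotient.lift w.asIdeal (redMap138 (fieldE ρ) A)
      (fun x hx => (redMap138_eq_zero_iff (fieldE ρ) A x).mpr ((hw x).mp hx))
  have hι : ∀ x : 𝓞 (fieldE ρ), ι (Ideal.Quotient.mk w.asIdeal x) = redMap138 (fieldE ρ) A x :=
    fun x => Ideal.Quotient.lift_mk _ _ _
  have hιinj : Function.Injective ι := RingHom.injective ι
  have hσD : σ ∈ A.decompositionSubgroup ℚ := hσ.mem_decompositionSubgroup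
  -- `f ≤ n`
  have hfn : f ≤ n := by
    have hFn := isFrobeniusAt_pow138 A hσ n
    obtain ⟨hσn, hxn⟩ := hFn
    have h1 : (⟨σ ^ (n : ℕ), hσn⟩ : A.decompositionSubgroup ℚ) • redMap138 (fieldE ρ) A b
        = redMap138 (fieldE ρ) A b := by
      rw [hxn, ← hι, ← map_pow, ← hcard, FiniteField.pow_card]
    rw [redMap138_apply] at h1
    have h2 := sub_mem_nonunits_of_smul_residue138 A hσn _ h1
    have h3 := hsep (σ ^ (n : ℕ)) h2
    have h4 : InQ8 (ρ (σ ^ (n : ℕ))) := inQ8_of_fixesE ρ hρ (hb _ h3)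
    rw [map_pow] at h4
    by_contra hlt
    push Not at hlt
    exact hleast n hlt n.pos h4
  -- `n ≤ f`
  have hnf : (n : ℕ) ≤ f := by
    have h4 : InQ8 (ρ (σ ^ f)) := by rw [map_pow]; exact hQ
    have hFf := isFrobeniusAt_pow138 A hσ f
    obtain ⟨hσf, hxf⟩ := hFf
    have hall : ∀ y : 𝓞 (fieldE ρ) ⧸ w.asIdeal, y ^ (p ^ f) = y := by
      intro y
      obtain ⟨x, rfl⟩ := Ideal.Quotient.mk_surjective y
      apply hιinj
      rw [map_pow, hι, ← hxf]
      exact smul_redMap138_of_fixed (fieldE ρ) A hσf x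
        (fixesE_of_inQ8 ρ h4 (SetLike.coe_mem (x : fieldE ρ)))
    have hf0' : f ≠ 0 := hf0.ne'
    have hne : (Polynomial.X ^ p ^ f - Polynomial.X :
        Polynomial (𝓞 (fieldE ρ) ⧸ w.asIdeal)) ≠ 0 :=
      FiniteField.X_pow_card_pow_sub_X_ne_zero _ hf0' hp.one_lt
    have hdeg : (Polynomial.X ^ p ^ f - Polynomial.X :
        Polynomial (𝓞 (fieldE ρ) ⧸ w.asIdeal)).natDegree = p ^ f :=
      FiniteField.X_pow_card_pow_sub_X_natDegree_eq _ hf0' hp.one_lt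
    have hsub : (Finset.univ : Finset (𝓞 (fieldE ρ) ⧸ w.asIdeal))
        ⊆ (Polynomial.X ^ p ^ f - Polynomial.X :
          Polynomial (𝓞 (fieldE ρ) ⧸ w.asIdeal)).roots.toFinset := by
      intro y _
      rw [Multiset.mem_toFinset, Polynomial.mem_roots hne, Polynomial.IsRoot.def]
      simp only [Polynomial.eval_sub, Polynomial.eval_pow, Polynomial.eval_X]
      rw [hall y, sub_self]
    have hle : Fintype.card (𝓞 (fieldE ρ) ⧸ w.asIdeal) ≤ p ^ f := by
      calc Fintype.card (𝓞 (fieldE ρ) ⧸ w.asIdeal)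
          = (Finset.univ : Finset (𝓞 (fieldE ρ) ⧸ w.asIdeal)).card := rfl
        _ ≤ _ := Finset.card_le_card hsub
        _ ≤ _ := Multiset.toFinset_card_le _
        _ ≤ _ := Polynomial.card_roots' _
        _ = p ^ f := hdeg
    rw [hcard] at hle
    exact (Nat.pow_le_pow_iff_right hp.one_lt).mp hle
  rw [Nat.card_eq_fintype_card, hcard, le_antisymm hnf hfn]

/-- The image of `𝓞 K` in the residue field of `A` has `N(A ∩ K)` elements. -/
theorem card_range_redMap (K : IntermediateField ℚ Qb) [NumberField K]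
    (A : ValuationSubring Qb) {w : HeightOneSpectrum (𝓞 K)} (hw : PlaceUnder K A w) :
    Nat.card (Set.range (redMap138 K A)) = Nat.card (𝓞 K ⧸ w.asIdeal) := by
  have : w.asIdeal.IsMaximal := w.isMaximal
  let _ : Field (𝓞 K ⧸ w.asIdeal) := Ideal.Quotient.field w.asIdeal
  let ι : (𝓞 K ⧸ w.asIdeal) →+* IsLocalRing.ResidueField A :=
    Ideal.Quotient.lift w.asIdeal (redMap138 K A)
      (fun x hx => (redMap138_eq_zero_iff K A x).mpr ((hw x).mp hx))
  have hιinj : Function.Injective ι := RingHom.injective ι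
  have hrange : Set.range (redMap138 K A) = Set.range ι := by
    ext y
    constructor
    · rintro ⟨x, rfl⟩
      exact ⟨Ideal.Quotient.mk w.asIdeal x, Ideal.Quotient.lift_mk _ _ _⟩
    · rintro ⟨x, rfl⟩
      obtain ⟨x, rfl⟩ := Ideal.Quotient.mk_surjective x
      exact ⟨x, (Ideal.Quotient.lift_mk _ _ _).symm⟩
  rw [hrange]
  exact Nat.card_range_of_injective hιinj

end Fermat.Agent.LT.A2.H38.SI

end
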