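import Mathlib
import Fermat.Agent.Lib.Cheb.H476.FrobConj
import Fermat.Agent.LT.A2.H38.SplitInertE
import Fermat.Agent.LT.A2.H800.NonInv

/-!
# Row LT, tower A2, branch GALSEED: leaf `SplitInertC` (helper38), PROVED

For almost all `p`, `A | p`, `σ` Frobenius at `A`, `w = A ∩ E`, `h = ρ(σ) ^ ordQ8 (ρ σ)`:

* `h ∈ C4`: the places `A ∩ L` and `τ A ∩ L` (`ρ τ = t0 ∈ Q8 ∖ C4`) of `L` over `w` are
  DIFFERENT.  Proof: `N(A ∩ E) = p ^ f = N(A ∩ L)`, so every `x ∈ 𝓞 L` is congruent modulo `𝔪_A`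
  to some `y ∈ 𝓞 E`; if the two places coincide then `τ⁻¹ a ≡ a` for a generator `a` of `L`,
  hence `τ⁻¹ a = a` (the conjugates of `a` are distinct modulo `𝔪_A`), and `ρ τ ∈ C4`.
* `h ∉ C4`: `A ∩ L` is the ONLY place of `L` over `w`.  Proof (norm trick): `δ = σ ^ f` lies in
  the decomposition group of `A` and induces the nontrivial automorphism of `L / E`; for `x` in a
  place `w''` over `w`, `x · δ x ∈ 𝓞 E ∩ w'' = w ⊂ 𝔪_A`, so `x ∈ 𝔪_A` or `δ x ∈ 𝔪_A`, i.e.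
  `x ∈ 𝔪_A`.

Built on helper138 (`FrobLAbs`, `FrobL`: separation of conjugates, residue degree), helper800
(`NonInv`: places under `A`), helper230 (`FieldE`: `subQ8 ρ = ρ⁻¹ Q8`) and main `Lib.Cheb.H476`.
-/

set_option autoImplicit false

open IsDedekindDomain NumberField
open scoped Pointwise

noncomputable section

namespace Fermat.Agent.LT.A2.H38.SI

open Fermat.Agent.LT.H130 Fermat.Agent.LT.A2 Fermat.Agent.LT.A2.H38
open Fermat.Agent.LT.A2.H138 Fermat.Agent.LT.A2.H800 Fermat.Agent.LT.A2.H230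
open Fermat.Agent.Lib.Cheb.H476

local notation "Qb" => AlgebraicClosure ℚ
local notation "Γℚ" => (AlgebraicClosure ℚ ≃ₐ[ℚ] AlgebraicClosure ℚ)

/-! ## Non-units of a valuation subring -/

theorem sub_mem_nonunits (A : ValuationSubring Qb) {x y : Qb} (hx : x ∈ A.nonunits)
    (hy : y ∈ A.nonunits) : x - y ∈ A.nonunits := by
  rw [ValuationSubring.mem_nonunits_iff] at hx hy ⊢
  exact lt_of_le_of_lt (Valuation.map_sub _ _ _) (max_lt hx hy)

theorem mem_nonunits_or_of_mul (A : ValuationSubring Qb) {x y : Qb} (hx : x ∈ A) (hy : y ∈ A)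
    (h : x * y ∈ A.nonunits) : x ∈ A.nonunits ∨ y ∈ A.nonunits := by
  rw [ValuationSubring.mem_nonunits_iff] at h ⊢
  by_contra hcon
  rw [not_or, ValuationSubring.mem_nonunits_iff, not_lt, not_lt] at hcon
  have hx1 : A.valuation x = 1 := le_antisymm ((A.valuation_le_one_iff _).mpr hx) hcon.1
  have hy1 : A.valuation y = 1 := le_antisymm ((A.valuation_le_one_iff _).mpr hy) hcon.2
  rw [map_mul, hx1, hy1, one_mul] at h
  exact lt_irrefl _ h

/-- The decomposition group preserves `𝔪_A`. -/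
theorem mem_nonunits_of_decomp (A : ValuationSubring Qb) {δ : Γℚ}
    (hδ : δ ∈ A.decompositionSubgroup ℚ) {x : Qb} (h : δ x ∈ A.nonunits) : x ∈ A.nonunits := by
  have hstab : δ • A = A := MulAction.mem_stabilizer_iff.mp hδ
  have h1 : δ x ∈ (δ • A).nonunits := by rw [hstab]; exact h
  rw [mem_nonunits_smul_iff, inv_apply_apply] at h1
  exact h1

/-! ## The split case: `𝓞 L ⊂ 𝓞 E + 𝔪_A` -/

theorem coe_algebraMap_EL (ρ : Γℚ →* GL (Fin 2) (ZMod 3)) (y : 𝓞 (fieldE ρ)) :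
    letI := algEL ρ
    ((((algebraMap (𝓞 (fieldE ρ)) (𝓞 (fieldL ρ)) y : 𝓞 (fieldL ρ)) : fieldL ρ)) : Qb)
      = (((y : fieldE ρ)) : Qb) := rfl

theorem redMap_algebraMap_EL (ρ : Γℚ →* GL (Fin 2) (ZMod 3)) (A : ValuationSubring Qb)
    (y : 𝓞 (fieldE ρ)) :
    letI := algEL ρ
    redMap138 (fieldL ρ) A (algebraMap (𝓞 (fieldE ρ)) (𝓞 (fieldL ρ)) y)
      = redMap138 (fieldE ρ) A y := rfl

theorem exists_E_approx (ρ : Γℚ →* GL (Fin 2) (ZMod 3))
    [NumberField (fieldE ρ)] [NumberField (fieldL ρ)] (A : ValuationSubring Qb)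
    {wE : HeightOneSpectrum (𝓞 (fieldE ρ))} {wL : HeightOneSpectrum (𝓞 (fieldL ρ))}
    (hwE : PlaceUnder (fieldE ρ) A wE) (hwL : PlaceUnder (fieldL ρ) A wL)
    (hcard : Nat.card (𝓞 (fieldL ρ) ⧸ wL.asIdeal) = Nat.card (𝓞 (fieldE ρ) ⧸ wE.asIdeal))
    (x : 𝓞 (fieldL ρ)) :
    ∃ y : 𝓞 (fieldE ρ), (((x : fieldL ρ)) : Qb) - (((y : fieldE ρ)) : Qb) ∈ A.nonunits := by
  letI := algEL ρ
  have hsub : Set.range (redMap138 (fieldE ρ) A) ⊆ Set.range (redMap138 (fieldL ρ) A) := by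
    rintro _ ⟨y, rfl⟩
    exact ⟨algebraMap (𝓞 (fieldE ρ)) (𝓞 (fieldL ρ)) y, redMap_algebraMap_EL ρ A y⟩
  have hcL := card_range_redMap (fieldL ρ) A hwL
  have hcE := card_range_redMap (fieldE ρ) A hwE
  have hfinq : Finite (𝓞 (fieldL ρ) ⧸ wL.asIdeal) :=
    Ideal.finiteQuotientOfFreeOfNeBot wL.asIdeal wL.ne_bot
  have hpos : 0 < Nat.card (𝓞 (fieldL ρ) ⧸ wL.asIdeal) := Nat.card_pos
  have hfin : (Set.range (redMap138 (fieldL ρ) A)).Finite := by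
    apply Set.finite_of_ncard_pos
    rw [← Nat.card_coe_set_eq, hcL]
    exact hpos
  have heq : Set.range (redMap138 (fieldE ρ) A) = Set.range (redMap138 (fieldL ρ) A) := by
    apply Set.eq_of_subset_of_ncard_le hsub _ hfin
    rw [← Nat.card_coe_set_eq, ← Nat.card_coe_set_eq, hcL, hcE, hcard]
  have hx : redMap138 (fieldL ρ) A x ∈ Set.range (redMap138 (fieldE ρ) A) := by
    rw [heq]; exact ⟨x, rfl⟩
  obtain ⟨y, hy⟩ := hx
  refine ⟨y, ?_⟩
  have hz : redMap138 (fieldL ρ) A (x - algebraMap (𝓞 (fieldE ρ)) (𝓞 (fieldL ρ)) y) = 0 := by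
    rw [map_sub, redMap_algebraMap_EL, hy, sub_self]
  have := (redMap138_eq_zero_iff (fieldL ρ) A _).mp hz
  have e : ((((x - algebraMap (𝓞 (fieldE ρ)) (𝓞 (fieldL ρ)) y : 𝓞 (fieldL ρ)) : fieldL ρ)) : Qb)
      = (((x : fieldL ρ)) : Qb) - (((y : fieldE ρ)) : Qb) := by
    push_cast
    rfl
  rw [e] at this
  exact this

/-! ## The split case -/

theorem split_case (ρ : Γℚ →* GL (Fin 2) (ZMod 3)) (hρ : Continuous ρ)
    (hsurj : Function.Surjective ρ) [NumberField (fieldE ρ)] [NumberField (fieldL ρ)]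
    (a : 𝓞 (fieldL ρ))
    (ha : ∀ τ : Γℚ, τ (((a : fieldL ρ)) : Qb) = (((a : fieldL ρ)) : Qb) →
      ∀ x ∈ fieldL ρ, τ x = x)
    (b : 𝓞 (fieldE ρ))
    (hb : ∀ τ : Γℚ, τ (((b : fieldE ρ)) : Qb) = (((b : fieldE ρ)) : Qb) →
      ∀ x ∈ fieldE ρ, τ x = x)
    {p : ℕ} (hp : p.Prime) (A : ValuationSubring Qb) (hA : A.LiesOverPrime p)
    (hsepa : ∀ τ : Γℚ, τ (((a : fieldL ρ)) : Qb) - (((a : fieldL ρ)) : Qb) ∈ A.nonunits →
      τ (((a : fieldL ρ)) : Qb) = (((a : fieldL ρ)) : Qb))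
    (hsepb : ∀ τ : Γℚ, τ (((b : fieldE ρ)) : Qb) - (((b : fieldE ρ)) : Qb) ∈ A.nonunits →
      τ (((b : fieldE ρ)) : Qb) = (((b : fieldE ρ)) : Qb))
    {σ : Γℚ} (hσ : A.IsFrobeniusAt σ p)
    {w : HeightOneSpectrum (𝓞 (fieldE ρ))} (hw : PlaceUnder (fieldE ρ) A w)
    (hC : ρ σ ^ ordQ8 (ρ σ) ∈ C4) :
    letI := algEL ρ
    ∃ w₁ w₂ : HeightOneSpectrum (𝓞 (fieldL ρ)), w₁ ≠ w₂ ∧
      LiesOverPl (fieldE ρ) w₁ w ∧ LiesOverPl (fieldE ρ) w₂ w ∧
      PlaceUnder (fieldL ρ) A w₁ ∧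
      ∃ (A₂ : ValuationSubring Qb) (σ₂ : Γℚ) (t : GL (Fin 2) (ZMod 3)),
        A₂.LiesOverPrime p ∧ A₂.IsFrobeniusAt σ₂ p ∧ InQ8NotC4 t ∧
          ρ σ₂ = t * ρ σ * t⁻¹ ∧ PlaceUnder (fieldL ρ) A₂ w₂ := by
  letI := algEL ρ
  obtain ⟨w₁, hw₁⟩ := exists_placeUnder800 (fieldL ρ) A hp hA
  obtain ⟨τ, hτ⟩ := hsurj Fermat.Agent.LT.A2.H800.t0
  have hA₂ : (τ • A).LiesOverPrime p := liesOverPrime_smul' τ hA
  obtain ⟨w₂, hw₂⟩ := exists_placeUnder800 (fieldL ρ) (τ • A) hp hA₂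
  have hτQ : τ ∈ subQ8 ρ := mem_subQ8_of800 ρ hτ
  refine ⟨w₁, w₂, ?_, liesOverPl800 ρ A hw₁ hw,
    liesOverPl800 ρ (τ • A) hw₂ (placeUnder_smul800 ρ A hτQ hw), hw₁, τ • A, τ * σ * τ⁻¹,
    Fermat.Agent.LT.A2.H800.t0, hA₂, isFrobeniusAt_conj τ hσ, t0_notC4,
    by rw [map_mul, map_mul, map_inv, hτ], hw₂⟩
  intro heq
  rw [← heq] at hw₂
  have hcE := card_quot_E ρ hρ b hb hp A hA hsepb hσ hw
  have hcL := card_quot_eq138 ρ hρ a ha hp A hA hsepa hσ hw₁ (isLeast_of_mem _ hC)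
  obtain ⟨y, hy⟩ := exists_E_approx ρ A hw hw₁ (by rw [hcL, hcE]) a
  have e : ((((a - algebraMap (𝓞 (fieldE ρ)) (𝓞 (fieldL ρ)) y : 𝓞 (fieldL ρ)) : fieldL ρ)) : Qb)
      = (((a : fieldL ρ)) : Qb) - (((y : fieldE ρ)) : Qb) := by
    push_cast
    rfl
  have hz : a - algebraMap (𝓞 (fieldE ρ)) (𝓞 (fieldL ρ)) y ∈ w₁.asIdeal := by
    rw [hw₁, e]; exact hy
  have hz2 := (hw₂ _).mp hz
  rw [e, mem_nonunits_smul_iff, map_sub] at hz2
  have hτy : τ⁻¹ (((y : fieldE ρ)) : Qb) = (((y : fieldE ρ)) : Qb) :=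
    (IntermediateField.mem_fixedField_iff _ _).mp (y : fieldE ρ).2 τ⁻¹ (inv_mem hτQ)
  rw [hτy] at hz2
  have h3 : τ⁻¹ (((a : fieldL ρ)) : Qb) - (((a : fieldL ρ)) : Qb) ∈ A.nonunits := by
    have := sub_mem_nonunits A hz2 hy
    have e2 : τ⁻¹ (((a : fieldL ρ)) : Qb) - (((y : fieldE ρ)) : Qb)
        - ((((a : fieldL ρ)) : Qb) - (((y : fieldE ρ)) : Qb))
        = τ⁻¹ (((a : fieldL ρ)) : Qb) - (((a : fieldL ρ)) : Qb) := by ring
    rw [e2] at this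
    exact this
  have h4 := hsepa τ⁻¹ h3
  have h5 : ρ τ⁻¹ ∈ C4 := mem_C4_of_fixes138 ρ hρ (ha _ h4)
  rw [map_inv, hτ] at h5
  exact t0_notC4.2 (by simpa using C4.inv_mem h5)

/-! ## The inert case -/

theorem coe_injective (K : IntermediateField ℚ Qb) :
    Function.Injective (fun x : 𝓞 K => (((x : K)) : Qb)) := by
  intro x y h
  exact RingOfIntegers.ext (Subtype.ext h)

theorem inert_case (ρ : Γℚ →* GL (Fin 2) (ZMod 3))
    [NumberField (fieldE ρ)] [NumberField (fieldL ρ)]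
    {p : ℕ} (hp : p.Prime) (A : ValuationSubring Qb) (hA : A.LiesOverPrime p)
    {σ : Γℚ} (hσ : A.IsFrobeniusAt σ p)
    {w : HeightOneSpectrum (𝓞 (fieldE ρ))} (hw : PlaceUnder (fieldE ρ) A w)
    (hC : ρ σ ^ ordQ8 (ρ σ) ∉ C4) :
    letI := algEL ρ
    ∃ w' : HeightOneSpectrum (𝓞 (fieldL ρ)), LiesOverPl (fieldE ρ) w' w ∧
      (∀ w'' : HeightOneSpectrum (𝓞 (fieldL ρ)), LiesOverPl (fieldE ρ) w'' w → w'' = w') ∧
      PlaceUnder (fieldL ρ) A w' := by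
  letI := algEL ρ
  obtain ⟨w', hw'⟩ := exists_placeUnder800 (fieldL ρ) A hp hA
  refine ⟨w', liesOverPl800 ρ A hw' hw, fun w'' hl => ?_, hw'⟩
  have hh : InQ8NotC4 (ρ (σ ^ ordQ8 (ρ σ))) :=
    ⟨by rw [map_pow]; exact (ordQ8_spec _).1, by rw [map_pow]; exact hC⟩
  have hδD : σ ^ ordQ8 (ρ σ) ∈ A.decompositionSubgroup ℚ :=
    pow_mem hσ.mem_decompositionSubgroup _
  generalize σ ^ ordQ8 (ρ σ) = δ at hh hδD
  have hle : w''.asIdeal ≤ w'.asIdeal := by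
    intro x hx
    rw [hw' x]
    have hxL : (((x : fieldL ρ)) : Qb) ∈ fieldL ρ := (x : fieldL ρ).2
    -- `δ x ∈ L`
    have hδL : δ (((x : fieldL ρ)) : Qb) ∈ fieldL ρ := by
      unfold fieldL
      rw [IntermediateField.mem_fixedField_iff]
      intro s hs
      have hs' : ρ (δ⁻¹ * s * δ) ∈ C4 := by
        rw [map_mul, map_mul, map_inv]
        have := (conj_mem_C4_iff (ρ δ)⁻¹ (inQ8NotC4_inv hh) (ρ s)).mpr (Subgroup.mem_comap.mp hs)
        rwa [inv_inv] at this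
      have h1 := fixes_of_mem_C4_138 ρ hs' hxL
      have h2 : (δ⁻¹ * s * δ) (((x : fieldL ρ)) : Qb) = δ⁻¹ (s (δ (((x : fieldL ρ)) : Qb))) := rfl
      rw [h2] at h1
      have h3 := congrArg δ h1
      rw [apply_inv_apply] at h3
      exact h3
    have hxint : IsIntegral ℤ (((x : fieldL ρ)) : Qb) := isIntegral_coe138 (fieldL ρ) x
    have hδint : IsIntegral ℤ (δ (((x : fieldL ρ)) : Qb)) := map_isIntegral_int δ hxint
    -- the norm `x · δ x` lies in `E`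
    have hNE : (((x : fieldL ρ)) : Qb) * δ (((x : fieldL ρ)) : Qb) ∈ fieldE ρ := by
      unfold fieldE
      rw [IntermediateField.mem_fixedField_iff]
      intro s hs
      have hsQ : InQ8 (ρ s) := by
        rw [subQ8_eq_comap230] at hs
        exact mem_Q8grp230.mp (Subgroup.mem_comap.mp hs)
      rw [map_mul]
      by_cases hsC : ρ s ∈ C4
      · rw [fixes_of_mem_C4_138 ρ hsC hxL, fixes_of_mem_C4_138 ρ hsC hδL]
      · have hl : ρ (δ⁻¹ * s) ∈ C4 := by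
          rw [map_mul, map_inv]
          exact mul_mem_C4_of_not (inQ8NotC4_inv hh) ⟨hsQ, hsC⟩
        have hδδ : ρ (δ * δ) ∈ C4 := by
          rw [map_mul]
          exact mul_mem_C4_of_not hh hh
        have e1 : ∀ z ∈ fieldL ρ, s z = δ z := by
          intro z hz
          have h1 := fixes_of_mem_C4_138 ρ hl hz
          have h2 : (δ⁻¹ * s) z = δ⁻¹ (s z) := rfl
          rw [h2] at h1
          have h3 := congrArg δ h1
          rw [apply_inv_apply] at h3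
          exact h3
        rw [e1 _ hxL, e1 _ hδL]
        have h4 : δ (δ (((x : fieldL ρ)) : Qb)) = (((x : fieldL ρ)) : Qb) :=
          fixes_of_mem_C4_138 ρ hδδ hxL
        rw [h4, mul_comm]
    -- as elements of `𝓞 L`, `𝓞 E`
    have hδintL : IsIntegral ℤ (⟨δ (((x : fieldL ρ)) : Qb), hδL⟩ : fieldL ρ) :=
      (isIntegral_algebraMap_iff (algebraMap (fieldL ρ) Qb).injective).mp hδint
    have hNint : IsIntegral ℤ
        (⟨(((x : fieldL ρ)) : Qb) * δ (((x : fieldL ρ)) : Qb), hNE⟩ : fieldE ρ) :=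
      (isIntegral_algebraMap_iff (algebraMap (fieldE ρ) Qb).injective).mp
        (hxint.mul hδint)
    set x' : 𝓞 (fieldL ρ) := IsIntegralClosure.mk' (𝓞 (fieldL ρ)) _ hδintL with hx'
    set n : 𝓞 (fieldE ρ) := IsIntegralClosure.mk' (𝓞 (fieldE ρ)) _ hNint with hn
    have hx'coe : (((x' : fieldL ρ)) : Qb) = δ (((x : fieldL ρ)) : Qb) := by
      have : ((x' : fieldL ρ)) = ⟨δ (((x : fieldL ρ)) : Qb), hδL⟩ :=
        IsIntegralClosure.algebraMap_mk' (𝓞 (fieldL ρ)) _ hδintL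
      rw [this]
    have hncoe : (((n : fieldE ρ)) : Qb)
        = (((x : fieldL ρ)) : Qb) * δ (((x : fieldL ρ)) : Qb) := by
      have : ((n : fieldE ρ))
          = ⟨(((x : fieldL ρ)) : Qb) * δ (((x : fieldL ρ)) : Qb), hNE⟩ :=
        IsIntegralClosure.algebraMap_mk' (𝓞 (fieldE ρ)) _ hNint
      rw [this]
    have hprod : algebraMap (𝓞 (fieldE ρ)) (𝓞 (fieldL ρ)) n = x * x' := by
      apply coe_injective (fieldL ρ)
      show ((((algebraMap (𝓞 (fieldE ρ)) (𝓞 (fieldL ρ)) n : 𝓞 (fieldL ρ)) : fieldL ρ)) : Qb)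
        = ((((x * x' : 𝓞 (fieldL ρ)) : fieldL ρ)) : Qb)
      rw [coe_algebraMap_EL, hncoe]
      push_cast
      rw [hx'coe]
    have hnw : n ∈ w.asIdeal := by
      have hl' : w''.asIdeal.comap (algebraMap (𝓞 (fieldE ρ)) (𝓞 (fieldL ρ))) = w.asIdeal := hl
      rw [← hl', Ideal.mem_comap, hprod]
      exact Ideal.mul_mem_right _ _ hx
    have hnA := (hw n).mp hnw
    rw [hncoe] at hnA
    rcases mem_nonunits_or_of_mul A (mem_of_isIntegral138 A hxint)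
      (mem_of_isIntegral138 A hδint) hnA with h | h
    · exact h
    · exact mem_nonunits_of_decomp A hδD h
  apply HeightOneSpectrum.ext
  exact w''.isMaximal.eq_of_le w'.isPrime.ne_top hle

/-! ## The leaf -/

/-- **Leaf `SplitInertC` (registry 841), unconditional.** -/
theorem splitInertC : SplitInertC := by
  intro ρ Ψ hyp hNE hNL
  classical
  obtain ⟨a, ha⟩ := exists_int_gen138 (fieldL ρ)
  obtain ⟨b, hb⟩ := exists_int_gen138 (fieldE ρ)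
  obtain ⟨S1, hS1⟩ := exists_sep_primes138 (isIntegral_coe138 (fieldL ρ) a)
  obtain ⟨S2, hS2⟩ := exists_sep_primes138 (isIntegral_coe138 (fieldE ρ) b)
  refine ⟨S1 ∪ S2, fun p hp hpS A hA σ hσ w hw => ⟨fun hC => ?_, fun hC => ?_⟩⟩
  · rw [Finset.mem_union, not_or] at hpS
    exact split_case ρ hyp.cont hyp.surj a ha b hb hp A hA (hS1 p hp hpS.1 A hA)
      (hS2 p hp hpS.2 A hA) hσ hw hC
  · exact inert_case ρ hp A hA hσ hw hC

end Fermat.Agent.LT.A2.H38.SI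

end
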