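import Fermat.Agent.LT.A2.H38.GalSeedTop
import Fermat.Agent.LT.A2.H230.GalSeedFields
import Fermat.Agent.LT.A2.H138.FrobL
import Fermat.Agent.LT.A2.H131.LevelPrimes
import Fermat.Agent.LT.A2.H922.UnifIdele
import Fermat.Agent.LT.A2.H798.PlaceExists
import Fermat.Agent.LT.A2.H494.ConjPlace
import Fermat.Agent.LT.H91.ChebG0
import Fermat.Agent.LT.A2.H144.CharRho
import Fermat.Agent.LT.A2.H144.TotCplxL
import Fermat.Agent.LT.A2.H800.NonInv
import Fermat.Agent.LT.A2.H38.SplitInert

/-!
# Row LT, tower A2, branch GALSEED -- RUNNING TOP with the closed leaves plugged (helper38)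

Plugged (byte-identical copies of the owners' files, sha256 in the registry rows):

| leaf | owner | theorem |
|---|---|---|
| `IotaC` | helper38 | `H38.iotaC` |
| `GroupC` | helper38 | `H38.groupC` |
| `NumFieldsC`, `TotCplxC`, `DegTwoC` | helper230 | `H230.numFieldsC230`, `totCplxC230`, `degTwoC230` |
| `FrobLC` | helper138 | `H138.frobLC138` |
| `LevelPrimesC` | helper131 | `H131.levelPrimesC_h131` |
| `UnifIdeleC` | helper922 | `H922.unifIdeleC922` |
| `PlaceExistsC` | helper798 | `H798.placeExistsC798` |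
| `ConjPlaceC` | helper494 | `H494.conjPlaceC494` |
| `ChebG0C` | helper91 | `H91.chebG0_h91` |
| `CharRhoC`, `TotCplxLC` | helper144 | `H144.charRhoC`, `H144.totCplxLC` |
| `NonInvC` (direct proof) | helper800 | `H800.nonInvC800` |
| `SplitInertC` | helper38 | `H38.SI.splitInertC` |

OPEN: `CFT.HeckeCharC` (tower CFT), `FinOrdC`.
-/

set_option autoImplicit false

namespace Fermat.Agent.LT.A2.H38

open Fermat.Agent.LT.A2

/-- Running top, first form (kept for the record): from the output of tower CFT and four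
leaves. -/
theorem galSeedC_plugged (hH : Fermat.Agent.LT.CFT.HeckeCharC)
    (h06 : TotCplxLC) (h07 : CharRhoC) (h08 : FinOrdC) (hSI : SplitInertC) : GalSeedC :=
  galSeedC_of_open hH H230.numFieldsC230 H230.totCplxC230 H230.degTwoC230 h06 h07 h08
    H138.frobLC138 H131.levelPrimesC_h131 H922.unifIdeleC922 H798.placeExistsC798
    H494.conjPlaceC494 hSI Fermat.Agent.LT.H91.chebG0_h91

/-- **RUNNING TOP of the GALSEED branch**: from the output of tower CFT and the two open
leaves `FinOrdC`, `SplitInertC`. -/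
theorem galSeedC_plugged2 (hH : Fermat.Agent.LT.CFT.HeckeCharC)
    (h08 : FinOrdC) (hSI : SplitInertC) : GalSeedC :=
  galSeedC_of_leaves iotaC H230.numFieldsC230 H230.totCplxC230 H230.degTwoC230
    (artinSeedC_of_leaves hH H144.totCplxLC H144.charRhoC h08 H138.frobLC138)
    H800.nonInvC800
    (matchC_of_leaves H131.levelPrimesC_h131 H922.unifIdeleC922 H494.conjPlaceC494 hSI groupC)

/-- **RUNNING TOP of the GALSEED branch, v3**: from the output of tower CFT and the only open
leaf `FinOrdC`. -/
theorem galSeedC_plugged3 (hH : Fermat.Agent.LT.CFT.HeckeCharC) (h08 : FinOrdC) : GalSeedC :=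
  galSeedC_plugged2 hH h08 SI.splitInertC

end Fermat.Agent.LT.A2.H38
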