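import Fermat.Agent.LT.A2.H38.Plugged
import Fermat.Agent.LT.A2.H444.FinOrd
import Fermat.Agent.LT.A2.H861.ArtinSeedOfRay

/-!
# Row LT, tower A2, branch GALSEED -- TRUNK v4: ALL leaves of the branch closed (helper38)

Additive on top of `Plugged.lean` (bytes unchanged).  Newly plugged (byte-identical copies of the
owners' files):

| leaf | owner | theorem |
|---|---|---|
| `FinOrdC` | helper444 | `H444.finOrdC444` (origin/helper444@21d0d64f8) |
| bypass of `FinOrdC` | helper861 | `H861.artinSeedC_of_ray861`, `CFT.H861.heckeChar_finOrd861` (origin/helper861@68ffaa1f0) |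
| IDELE `ArtinRayC → HeckeCharC` | helper861 | `CFT.H861.heckeOfRay861` |

The ONLY open input of the GALSEED branch is now the output of tower CFT (architect helper53):
`CFT.HeckeCharC`, or its ray form `CFT.ArtinRayC`.

* `galSeedC_plugged4 : CFT.HeckeCharC → A2.GalSeedC`
* `galSeedC_of_artinRay : CFT.ArtinRayC → A2.GalSeedC`
* `galSeedC_of_artinRay_bis` : the same statement through helper861's bypass (second, independent
  path: `FinOrdC` not used).
-/

set_option autoImplicit false

namespace Fermat.Agent.LT.A2.H38

open Fermat.Agent.LT.A2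

/-- **TRUNK v4 of the GALSEED branch**: from the output of tower CFT ALONE. -/
theorem galSeedC_plugged4 (hH : Fermat.Agent.LT.CFT.HeckeCharC) : GalSeedC :=
  galSeedC_plugged3 hH H444.finOrdC444

/-- **TRUNK v4, ray form**: from the ray form of Artin reciprocity ALONE. -/
theorem galSeedC_of_artinRay (hA : Fermat.Agent.LT.CFT.ArtinRayC) : GalSeedC :=
  galSeedC_plugged4 (Fermat.Agent.LT.CFT.H861.heckeOfRay861 hA)

/-- The same statement through helper861's bypass (no density argument, `FinOrdC` not used). -/
theorem galSeedC_of_artinRay_bis (hA : Fermat.Agent.LT.CFT.ArtinRayC) : GalSeedC :=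
  galSeedC_of_leaves iotaC H230.numFieldsC230 H230.totCplxC230 H230.degTwoC230
    (H861.artinSeedC_of_ray861 hA H144.totCplxLC H144.charRhoC H138.frobLC138)
    H800.nonInvC800
    (matchC_of_leaves H131.levelPrimesC_h131 H922.unifIdeleC922 H494.conjPlaceC494
      SI.splitInertC groupC)

end Fermat.Agent.LT.A2.H38
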